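import Mathlib
import Fermat.Agent.CFT.Local.NormedLocal
import Fermat.Agent.CFT.Local.WildIndex

/-!
# S56 / LF row B2 (LF5), half A: norm forms of ROOT and of "exact level `l` is not a `p`-th power"

For a local field `K` (normed, ultrametric, proper):

* `mem_span_singleton_iff_norm_le` : in `𝒪[K]`, `x ∈ (a) ↔ ‖x‖ ≤ ‖a‖`;
* `exists_pow_eq_of_norm_sub_one_le` (ROOT): if `‖δ‖ ^ (p - 1) < ‖p‖` and `‖w - 1‖ ≤ ‖p‖ ‖δ‖`
  then `w` is a `p`-th power (norm form of the landed `WildIndex.exists_pow_prime_eq`);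
* `exists_pow_eq_of_approx` : from `x' ≡ t ^ p mod p δ x'` to a `p`-th root of `x'`;
* `not_pow_of_norm_sub_one` : if `‖p‖ = ‖ϖ‖ ^ ((p - 1) e0)`, `ϖ` generates the value group,
  and `‖z - 1‖ = ‖ϖ‖ ^ l` with `1 ≤ l < p e0`, `p ∤ l`, then `z` is not a `p`-th power.
-/

set_option autoImplicit false

namespace Fermat.Agent.S56.LF.LevelBound

open scoped NNReal NormedField Valued
open IsLocalRing Fermat.Agent.CFT.Local Fermat.Agent.CFT.Local.NormedLocal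

section Basic

variable {K : Type*} [NontriviallyNormedField K] [IsUltrametricDist K]

/-- Divisibility in `𝒪[K]` is comparison of norms. -/
theorem mem_span_singleton_iff_norm_le {x a : 𝒪[K]} :
    x ∈ Ideal.span {a} ↔ ‖(x : K)‖ ≤ ‖(a : K)‖ := by
  have h := Valued.integer.coe_span_singleton_eq_closedBall a
  have h2 : x ∈ (Ideal.span {a} : Set 𝒪[K]) ↔ x ∈ Metric.closedBall (0 : 𝒪[K]) ‖a‖ := by rw [h]
  rw [mem_closedBall_zero_iff] at h2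
  exact h2

/-- Strict anti-monotonicity of powers of a norm in `(0, 1)`, as an `iff`. -/
theorem pow_lt_pow_iff_of_lt_one' {r : ℝ} (h0 : 0 < r) (h1 : r < 1) {m n : ℕ} :
    r ^ m < r ^ n ↔ n < m :=
  pow_lt_pow_iff_right_of_lt_one₀ h0 h1

theorem pow_le_pow_iff_of_lt_one' {r : ℝ} (h0 : 0 < r) (h1 : r < 1) {m n : ℕ} :
    r ^ m ≤ r ^ n ↔ n ≤ m :=
  pow_le_pow_iff_right_of_lt_one₀ h0 h1

theorem pow_eq_pow_iff_of_lt_one' {r : ℝ} (h0 : 0 < r) (h1 : r < 1) {m n : ℕ} :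
    r ^ m = r ^ n ↔ m = n := by
  constructor
  · intro h
    have h2 := (pow_le_pow_iff_of_lt_one' h0 h1 (m := m) (n := n)).mp h.le
    have h3 := (pow_le_pow_iff_of_lt_one' h0 h1 (m := n) (n := m)).mp h.ge
    omega
  · rintro rfl
    rfl

/-- Ultrametric inequality for a difference. -/
theorem norm_sub_le_max' (x y : K) : ‖x - y‖ ≤ max ‖x‖ ‖y‖ := by
  have h := IsUltrametricDist.norm_add_le_max x (-y)
  rwa [norm_neg, ← sub_eq_add_neg] at h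

/-- `‖1 + x‖ = 1` for `‖x‖ < 1`. -/
theorem norm_one_add_eq_one {x : K} (hx : ‖x‖ < 1) : ‖1 + x‖ = 1 := by
  have h := IsUltrametricDist.norm_add_eq_max_of_norm_ne_norm (x := (1 : K)) (y := x)
    (by rw [norm_one]; exact hx.ne')
  rw [h, norm_one, max_eq_left hx.le]

end Basic

section Root

variable {K : Type*} [NontriviallyNormedField K] [IsUltrametricDist K] [ProperSpace K]

/-- **ROOT, norm form.** If `‖δ‖ ^ (p - 1) < ‖p‖` and `‖w - 1‖ ≤ ‖p‖ ‖δ‖`, then `w` is a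
`p`-th power in `K`. -/
theorem exists_pow_eq_of_norm_sub_one_le {p : ℕ} (hp : p.Prime) (hp0 : (p : K) ≠ 0) {δ w : K}
    (hδ0 : δ ≠ 0) (hδ : ‖δ‖ ^ (p - 1) < ‖(p : K)‖) (hw : ‖w - 1‖ ≤ ‖(p : K)‖ * ‖δ‖) :
    ∃ x : K, x ^ p = w := by
  have hp1 : ‖(p : K)‖ ≤ 1 := IsUltrametricDist.norm_natCast_le_one K p
  have hδ1 : ‖δ‖ < 1 := by
    by_contra hcon
    rw [not_lt] at hcon
    have : (1 : ℝ) ≤ ‖δ‖ ^ (p - 1) := one_le_pow₀ hcon
    linarith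
  obtain ⟨ϖ, hϖ⟩ := IsDiscreteValuationRing.exists_irreducible 𝒪[K]
  have hϖ0 : 0 < ‖(ϖ : K)‖ := Valued.integer.norm_irreducible_pos hϖ
  have hϖ1 : ‖(ϖ : K)‖ < 1 := Valued.integer.norm_irreducible_lt_one hϖ
  have hpO : ((p : ℕ) : 𝒪[K]) ≠ 0 := by
    intro h
    apply hp0
    have := congrArg (Subtype.val : 𝒪[K] → K) h
    simpa using this
  let δO : 𝒪[K] := ⟨δ, Valued.integer.mem_iff.mpr hδ1.le⟩
  have hδO : δO ≠ 0 := by
    intro h
    exact hδ0 (congrArg (Subtype.val : 𝒪[K] → K) h)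
  obtain ⟨e, υ, hυ⟩ := IsDiscreteValuationRing.eq_unit_mul_pow_irreducible hpO hϖ
  obtain ⟨n, υ', hυ'⟩ := IsDiscreteValuationRing.eq_unit_mul_pow_irreducible hδO hϖ
  have hnp : ‖(p : K)‖ = ‖(ϖ : K)‖ ^ e := by
    have h2 : ((p : ℕ) : K) = ((υ : 𝒪[K]) : K) * (ϖ : K) ^ e := by
      have := congrArg (Subtype.val : 𝒪[K] → K) hυ
      simpa using this
    rw [h2, norm_mul, Valued.integer.norm_coe_unit, one_mul, norm_pow]
  have hnδ : ‖δ‖ = ‖(ϖ : K)‖ ^ n := by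
    have h2 : δ = ((υ' : 𝒪[K]) : K) * (ϖ : K) ^ n := congrArg (Subtype.val : 𝒪[K] → K) hυ'
    rw [h2, norm_mul, Valued.integer.norm_coe_unit, one_mul, norm_pow]
  have hne : e < n * (p - 1) := by
    rw [hnp, hnδ, ← pow_mul] at hδ
    exact (pow_lt_pow_iff_of_lt_one' hϖ0 hϖ1).mp hδ
  have hn : 1 ≤ n := by
    rcases Nat.eq_zero_or_pos n with h | h
    · rw [h] at hne
      omega
    · exact h
  have hw1 : ‖w - 1‖ < 1 := by
    have : ‖(p : K)‖ * ‖δ‖ < 1 := by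
      calc ‖(p : K)‖ * ‖δ‖ ≤ 1 * ‖δ‖ := mul_le_mul_of_nonneg_right hp1 (norm_nonneg _)
        _ = ‖δ‖ := one_mul _
        _ < 1 := hδ1
    linarith
  have hwn : ‖w‖ = 1 := by
    have := norm_one_add_eq_one hw1
    rwa [add_sub_cancel] at this
  let wO : 𝒪[K] := ⟨w, Valued.integer.mem_iff.mpr hwn.le⟩
  have hwU : IsUnit wO := Valued.integer.isUnit_iff_norm_eq_one.mpr hwn
  have hmem : hwU.unit ∈ principalUnits 𝒪[K] (n + e) := by
    rw [mem_principalUnits, maximalIdeal_pow_eq_span hϖ, mem_span_singleton_iff_norm_le]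
    have h1 : (((hwU.unit : 𝒪[K]) - 1 : 𝒪[K]) : K) = w - 1 := rfl
    have h2 : (((ϖ ^ (n + e) : 𝒪[K]) : 𝒪[K]) : K) = (ϖ : K) ^ (n + e) := rfl
    rw [h1, h2, norm_pow, pow_add, ← hnp, ← hnδ, mul_comm]
    exact hw
  have hpe : ((p : ℕ) : 𝒪[K]) = ϖ ^ e * (υ : 𝒪[K]) := by rw [hυ, mul_comm]
  obtain ⟨x, -, hx⟩ := exists_pow_prime_eq hϖ hp hpe n hn hne hmem
  refine ⟨((x : 𝒪[K]) : K), ?_⟩
  have h3 : ((x ^ p : 𝒪[K]ˣ) : 𝒪[K]) = wO := by rw [hx]; rfl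
  have h4 := congrArg (Subtype.val : 𝒪[K] → K) h3
  simpa using h4

/-- **From an approximate `p`-th root to a `p`-th root.**  If `x' ≡ t ^ p` modulo `p δ x'`
with `‖δ‖ ^ (p - 1) < ‖p‖`, then `x'` is a `p`-th power. -/
theorem exists_pow_eq_of_approx {p : ℕ} (hp : p.Prime) (hp0 : (p : K) ≠ 0) {x' t δ : K}
    (hx' : x' ≠ 0) (hδ0 : δ ≠ 0) (hδ : ‖δ‖ ^ (p - 1) < ‖(p : K)‖)
    (h : ‖x' - t ^ p‖ ≤ ‖(p : K)‖ * ‖δ‖ * ‖x'‖) : ∃ r : K, r ^ p = x' := by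
  have hp1 : ‖(p : K)‖ ≤ 1 := IsUltrametricDist.norm_natCast_le_one K p
  have hδ1 : ‖δ‖ < 1 := by
    by_contra hcon
    rw [not_lt] at hcon
    have : (1 : ℝ) ≤ ‖δ‖ ^ (p - 1) := one_le_pow₀ hcon
    linarith
  have hx'pos : 0 < ‖x'‖ := norm_pos_iff.mpr hx'
  have hlt1 : ‖(p : K)‖ * ‖δ‖ < 1 := by
    calc ‖(p : K)‖ * ‖δ‖ ≤ 1 * ‖δ‖ := mul_le_mul_of_nonneg_right hp1 (norm_nonneg _)
      _ = ‖δ‖ := one_mul _
      _ < 1 := hδ1
  have hlt : ‖x' - t ^ p‖ < ‖x'‖ := by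
    calc ‖x' - t ^ p‖ ≤ ‖(p : K)‖ * ‖δ‖ * ‖x'‖ := h
      _ < 1 * ‖x'‖ := mul_lt_mul_of_pos_right hlt1 hx'pos
      _ = ‖x'‖ := one_mul _
  have htp : ‖t ^ p‖ = ‖x'‖ := by
    have h1 : t ^ p = x' + -(x' - t ^ p) := by ring
    have h2 : ‖x'‖ ≠ ‖-(x' - t ^ p)‖ := by
      rw [norm_neg]
      exact hlt.ne'
    rw [h1, IsUltrametricDist.norm_add_eq_max_of_norm_ne_norm h2, norm_neg, max_eq_left hlt.le]
  have htp0 : t ^ p ≠ 0 := by
    rw [← norm_pos_iff, htp]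
    exact hx'pos
  have hw : ‖x' / t ^ p - 1‖ ≤ ‖(p : K)‖ * ‖δ‖ := by
    have h1 : x' / t ^ p - 1 = (x' - t ^ p) / t ^ p := by
      field_simp
    rw [h1, norm_div, htp, div_le_iff₀ hx'pos]
    exact h
  obtain ⟨x, hx⟩ := exists_pow_eq_of_norm_sub_one_le hp hp0 hδ0 hδ hw
  refine ⟨x * t, ?_⟩
  rw [mul_pow, hx, div_mul_cancel₀ _ htp0]

end Root

section NotPow

variable {K : Type*} [NontriviallyNormedField K] [IsUltrametricDist K]

/-- **Exact level `l < p e0`, `p ∤ l`, is not a `p`-th power**, norm form.  `ϖ` generates the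
value group (`hval`) and `‖p‖ = ‖ϖ‖ ^ ((p - 1) e0)`. -/
theorem not_pow_of_norm_sub_one {p : ℕ} (hp : p.Prime) {ϖ : K} (hϖ0 : 0 < ‖ϖ‖) (hϖ1 : ‖ϖ‖ < 1)
    (hval : ∀ y : K, y ≠ 0 → ‖y‖ < 1 → ∃ j : ℕ, 1 ≤ j ∧ ‖y‖ = ‖ϖ‖ ^ j)
    {e0 : ℕ} (he : ‖(p : K)‖ = ‖ϖ‖ ^ ((p - 1) * e0)) {l : ℕ} (hl1 : 1 ≤ l) (hl : l < p * e0)
    (hpl : ¬ p ∣ l) {z : K} (hz : ‖z - 1‖ = ‖ϖ‖ ^ l) (w : K) (hw : w ^ p = z) : False := by
  have hp1 : 1 ≤ p - 1 := by have := hp.two_le; omega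
  have he0 : 1 ≤ e0 := by
    rcases Nat.eq_zero_or_pos e0 with h | h
    · rw [h] at hl; omega
    · exact h
  have hpn : ‖(p : K)‖ < 1 := by
    rw [he]
    exact pow_lt_one₀ hϖ0.le hϖ1 (by positivity)
  have hz1 : ‖z - 1‖ < 1 := by
    rw [hz]
    exact pow_lt_one₀ hϖ0.le hϖ1 (by omega)
  have hzn : ‖z‖ = 1 := by
    have := norm_one_add_eq_one hz1
    rwa [add_sub_cancel] at this
  have hwn : ‖w‖ = 1 := by
    have h1 : ‖w‖ ^ p = 1 := by rw [← norm_pow, hw, hzn]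
    exact (pow_eq_one_iff_of_nonneg (norm_nonneg w) hp.ne_zero).mp h1
  -- work in the ring of integers to get an integral `r`
  let wO : 𝒪[K] := ⟨w, Valued.integer.mem_iff.mpr hwn.le⟩
  obtain ⟨rO, hrO⟩ := one_add_pow_prime_eq hp (wO - 1)
  set y : K := w - 1 with hy
  set r : K := (rO : K) with hr
  have hrn : ‖r‖ ≤ 1 := Valued.integer.norm_le_one rO
  have hyn1 : ‖y‖ ≤ 1 := by
    have : ‖((wO - 1 : 𝒪[K]) : K)‖ ≤ 1 := Valued.integer.norm_le_one (wO - 1)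
    exact this
  have hexp : z - 1 = (p : K) * y * (1 + y * r) + y ^ p := by
    have h1 := congrArg (Subtype.val : 𝒪[K] → K) hrO
    have h2 : ((1 + (wO - 1) : 𝒪[K]) : K) = w := by
      change (1 : K) + (w - 1) = w
      ring
    have h3 : (((1 + (wO - 1)) ^ p : 𝒪[K]) : K) = w ^ p := by
      rw [← h2]; rfl
    have h4 : ((1 + (p : 𝒪[K]) * (wO - 1) + (p : 𝒪[K]) * (wO - 1) ^ 2 * rO + (wO - 1) ^ p : 𝒪[K]) : K)
        = 1 + (p : K) * y + (p : K) * y ^ 2 * r + y ^ p := by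
      push_cast
      rfl
    rw [h3, h4, hw] at h1
    rw [h1]
    ring
  -- `‖y‖ < 1`
  have hyp : ‖y‖ < 1 := by
    have h1 : y ^ p = (z - 1) - (p : K) * y * (1 + y * r) := by rw [hexp]; ring
    have h2 : ‖(p : K) * y * (1 + y * r)‖ ≤ ‖(p : K)‖ := by
      rw [norm_mul, norm_mul]
      have h3 : ‖1 + y * r‖ ≤ 1 := by
        refine (IsUltrametricDist.norm_add_le_max _ _).trans (max_le (by rw [norm_one]) ?_)
        rw [norm_mul]
        exact mul_le_one₀ hyn1 (norm_nonneg _) hrn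
      calc ‖(p : K)‖ * ‖y‖ * ‖1 + y * r‖ ≤ ‖(p : K)‖ * 1 * 1 := by
            gcongr
        _ = ‖(p : K)‖ := by ring
    have h4 : ‖y ^ p‖ < 1 := by
      rw [h1]
      refine lt_of_le_of_lt (norm_sub_le_max' _ _) (max_lt hz1 ?_)
      exact lt_of_le_of_lt h2 hpn
    rw [norm_pow] at h4
    by_contra hcon
    rw [not_lt] at hcon
    have : (1 : ℝ) ≤ ‖y‖ ^ p := one_le_pow₀ hcon
    linarith
  by_cases hy0 : y = 0
  · rw [hy0] at hexp
    have hz0 : z - 1 = 0 := by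
      rw [hexp]
      simp [hp.ne_zero]
    rw [hz0, norm_zero] at hz
    exact absurd hz (pow_pos hϖ0 l).ne
  obtain ⟨j, hj1, hj⟩ := hval y hy0 hyp
  have h1r : ‖1 + y * r‖ = 1 := by
    apply norm_one_add_eq_one
    rw [norm_mul]
    calc ‖y‖ * ‖r‖ ≤ ‖y‖ * 1 := mul_le_mul_of_nonneg_left hrn (norm_nonneg _)
      _ = ‖y‖ := mul_one _
      _ < 1 := hyp
  have hA : ‖(p : K) * y * (1 + y * r)‖ = ‖ϖ‖ ^ ((p - 1) * e0 + j) := by
    rw [norm_mul, norm_mul, h1r, mul_one, he, hj, pow_add]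
  have hB : ‖y ^ p‖ = ‖ϖ‖ ^ (p * j) := by
    rw [norm_pow, hj, ← pow_mul, mul_comm]
  have hpj : p * j = (p - 1) * j + j := by
    have : p = (p - 1) + 1 := by omega
    nth_rewrite 1 [this]
    ring
  rcases lt_trichotomy ((p - 1) * e0 + j) (p * j) with hlt | heq | hgt
  · -- the `p y` term dominates: level `e + j > p e0`
    have hne : ‖(p : K) * y * (1 + y * r)‖ ≠ ‖y ^ p‖ := by
      rw [hA, hB]
      intro h
      have := (pow_eq_pow_iff_of_lt_one' hϖ0 hϖ1).mp h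
      omega
    have h5 := IsUltrametricDist.norm_add_eq_max_of_norm_ne_norm hne
    rw [← hexp, hz, hA, hB] at h5
    have h6 : ‖ϖ‖ ^ (p * j) ≤ ‖ϖ‖ ^ ((p - 1) * e0 + j) :=
      (pow_le_pow_iff_of_lt_one' hϖ0 hϖ1).mpr hlt.le
    rw [max_eq_left h6] at h5
    have h7 := (pow_eq_pow_iff_of_lt_one' hϖ0 hϖ1).mp h5
    have h8 : (p - 1) * e0 < (p - 1) * j := by omega
    have h9 : e0 < j := lt_of_mul_lt_mul_left h8 (Nat.zero_le _)
    have h10 : p * e0 = (p - 1) * e0 + e0 := by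
      have : p = (p - 1) + 1 := by omega
      nth_rewrite 1 [this]
      ring
    omega
  · -- equal: level at least `p e0`
    have h5 : ‖z - 1‖ ≤ ‖ϖ‖ ^ (p * j) := by
      rw [hexp]
      refine (IsUltrametricDist.norm_add_le_max _ _).trans (max_le ?_ ?_)
      · rw [hA, heq]
      · rw [hB]
    rw [hz] at h5
    have h6 := (pow_le_pow_iff_of_lt_one' hϖ0 hϖ1).mp h5
    have h8 : (p - 1) * e0 = (p - 1) * j := by omega
    have h9 : e0 = j := Nat.eq_of_mul_eq_mul_left (by omega) h8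
    rw [← h9] at h6
    omega
  · -- the `y ^ p` term dominates: level `p j`
    have hne : ‖(p : K) * y * (1 + y * r)‖ ≠ ‖y ^ p‖ := by
      rw [hA, hB]
      intro h
      have := (pow_eq_pow_iff_of_lt_one' hϖ0 hϖ1).mp h
      omega
    have h5 := IsUltrametricDist.norm_add_eq_max_of_norm_ne_norm hne
    rw [← hexp, hz, hA, hB] at h5
    have h6 : ‖ϖ‖ ^ ((p - 1) * e0 + j) ≤ ‖ϖ‖ ^ (p * j) :=
      (pow_le_pow_iff_of_lt_one' hϖ0 hϖ1).mpr hgt.le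
    rw [max_eq_right h6] at h5
    have h7 := (pow_eq_pow_iff_of_lt_one' hϖ0 hϖ1).mp h5
    exact hpl ⟨j, h7⟩

end NotPow

end Fermat.Agent.S56.LF.LevelBound
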