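import Mathlib

/-!
# S56 / LF row B2 (LF5), half A: the perturbation `ϖ ↦ ϖ (1 + δ)` (ring level)

`B = A[ϖ]` with `g(ϖ) = 0`, all coefficients of `g` below the top degree divisible by `π ∈ A`
(the Eisenstein shape).  Then

* `aeval_perturb_mem` : `g(ϖ (1 + δ)) ∈ (π δ)`, so `ϖ ↦ ϖ (1 + δ)` defines a ring hom
  `ψ : B → B ⧸ (π δ)` over `A` as soon as `B` has the universal property of `A[X] ⧸ (g)`
  (`eval₂_mk_perturb_eq_zero` is the hypothesis of that universal property);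
* `perturb_congr` : any such `ψ` is the identity modulo `δ ϖ` (when `ϖ ∣ π`);
* `perturb_leading` : `ψ (1 + ϖ ^ i a) = 1 + ϖ ^ i a + i a δ ϖ ^ i` modulo `δ ϖ ^ (i + 1)`.

No expansion of elements as polynomials in `ϖ` is used.
-/

set_option autoImplicit false

namespace Fermat.Agent.S56.LF.LevelBound

open Polynomial

section Perturb

variable {A B : Type*} [CommRing A] [CommRing B] [Algebra A B]

/-- `(1 + δ) ^ i = 1 + i δ + δ ^ 2 σ`. -/
theorem exists_one_add_pow_eq (δ : B) (i : ℕ) :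
    ∃ σ : B, (1 + δ) ^ i = 1 + (i : B) * δ + δ ^ 2 * σ := by
  induction i with
  | zero => exact ⟨0, by simp⟩
  | succ i ih =>
    obtain ⟨σ, hσ⟩ := ih
    refine ⟨σ + (i : B) + δ * σ, ?_⟩
    rw [pow_succ, hσ]
    push_cast
    ring

/-- `(1 + δ) ^ j - (1 + δ) ^ e ∈ (δ)`. -/
theorem exists_one_add_pow_sub_eq (δ : B) (j e : ℕ) :
    ∃ r : B, (1 + δ) ^ j - (1 + δ) ^ e = δ * r := by
  obtain ⟨σ, hσ⟩ := exists_one_add_pow_eq δ j
  obtain ⟨τ, hτ⟩ := exists_one_add_pow_eq δ e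
  refine ⟨(j : B) - (e : B) + δ * (σ - τ), ?_⟩
  rw [hσ, hτ]
  ring

/-- **Eisenstein congruence.** If `g(ϖ) = 0` and all coefficients of `g` below the top degree
are divisible by `π`, then `g(ϖ (1 + δ)) ∈ (π δ)`. -/
theorem aeval_perturb_mem (g : A[X]) (π : A) (hcoef : ∀ i < g.natDegree, π ∣ g.coeff i)
    (ϖ δ : B) (h0 : aeval ϖ g = 0) :
    aeval (ϖ * (1 + δ)) g ∈ Ideal.span {algebraMap A B π * δ} := by
  have h1 := Polynomial.aeval_eq_sum_range (p := g) (ϖ * (1 + δ))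
  have h2 := Polynomial.aeval_eq_sum_range (p := g) ϖ
  rw [h0] at h2
  have key : aeval (ϖ * (1 + δ)) g =
      ∑ i ∈ Finset.range (g.natDegree + 1),
        algebraMap A B (g.coeff i) * ϖ ^ i * ((1 + δ) ^ i - (1 + δ) ^ g.natDegree) := by
    have h3 : ∑ i ∈ Finset.range (g.natDegree + 1),
        algebraMap A B (g.coeff i) * ϖ ^ i * ((1 + δ) ^ i - (1 + δ) ^ g.natDegree) =
        ∑ i ∈ Finset.range (g.natDegree + 1), g.coeff i • (ϖ * (1 + δ)) ^ i -
          (1 + δ) ^ g.natDegree * ∑ i ∈ Finset.range (g.natDegree + 1), g.coeff i • ϖ ^ i := by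
      rw [Finset.mul_sum, ← Finset.sum_sub_distrib]
      apply Finset.sum_congr rfl
      intro i _
      rw [Algebra.smul_def, Algebra.smul_def, mul_pow]
      ring
    rw [h3, ← h1, ← h2, mul_zero, sub_zero]
  rw [key]
  apply Ideal.sum_mem
  intro i hi
  rcases Nat.lt_or_ge i g.natDegree with hlt | hge
  · obtain ⟨c, hc⟩ := hcoef i hlt
    obtain ⟨r, hr⟩ := exists_one_add_pow_sub_eq δ i g.natDegree
    rw [hr, hc, map_mul, Ideal.mem_span_singleton']
    exact ⟨algebraMap A B c * ϖ ^ i * r, by ring⟩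
  · have hi' : i = g.natDegree := by
      have := Finset.mem_range.mp hi
      omega
    rw [hi', sub_self, mul_zero]
    exact Ideal.zero_mem _

/-- The hypothesis of the universal property of `A[X] ⧸ (g)` for the perturbed root. -/
theorem eval₂_mk_perturb_eq_zero (g : A[X]) (π : A) (hcoef : ∀ i < g.natDegree, π ∣ g.coeff i)
    (ϖ δ : B) (h0 : aeval ϖ g = 0) :
    eval₂ ((Ideal.Quotient.mk (Ideal.span {algebraMap A B π * δ})).comp (algebraMap A B))
      (Ideal.Quotient.mk (Ideal.span {algebraMap A B π * δ}) (ϖ * (1 + δ))) g = 0 := by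
  rw [← Polynomial.hom_eval₂, ← Polynomial.aeval_def, Ideal.Quotient.eq_zero_iff_mem]
  exact aeval_perturb_mem g π hcoef ϖ δ h0

/-- Two ring homs out of `B = A[ϖ]` agreeing on `A` and at `ϖ` are equal. -/
theorem ringHom_eq_of_adjoin_eq_top {T : Type*} [Semiring T] (ϖ : B)
    (hadj : Algebra.adjoin A {ϖ} = ⊤) (f g : B →+* T)
    (h1 : ∀ a : A, f (algebraMap A B a) = g (algebraMap A B a)) (h2 : f ϖ = g ϖ) : f = g := by
  ext x
  have hx : x ∈ Algebra.adjoin A {ϖ} := by rw [hadj]; exact Algebra.mem_top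
  induction hx using Algebra.adjoin_induction with
  | mem y hy =>
    rw [Set.mem_singleton_iff] at hy
    rw [hy, h2]
  | algebraMap r => exact h1 r
  | add y z _ _ hy hz => rw [map_add, map_add, hy, hz]
  | mul y z _ _ hy hz => rw [map_mul, map_mul, hy, hz]

/-- **The perturbation is the identity modulo `δ ϖ`.** -/
theorem perturb_congr (ϖ δ : B) (π : A) (hadj : Algebra.adjoin A {ϖ} = ⊤)
    (hπ : ϖ ∣ algebraMap A B π)
    (ψ : B →+* B ⧸ Ideal.span {algebraMap A B π * δ})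
    (hψA : ∀ a : A, ψ (algebraMap A B a) =
      Ideal.Quotient.mk (Ideal.span {algebraMap A B π * δ}) (algebraMap A B a))
    (hψϖ : ψ ϖ = Ideal.Quotient.mk (Ideal.span {algebraMap A B π * δ}) (ϖ * (1 + δ)))
    (x x' : B) (hx : ψ x = Ideal.Quotient.mk (Ideal.span {algebraMap A B π * δ}) x') :
    ∃ r : B, x' = x + δ * ϖ * r := by
  obtain ⟨t, ht⟩ := hπ
  have hIJ : Ideal.span {algebraMap A B π * δ} ≤ Ideal.span {δ * ϖ} := by
    rw [Ideal.span_singleton_le_iff_mem, Ideal.mem_span_singleton']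
    exact ⟨t, by rw [ht]; ring⟩
  have hfg : (Ideal.Quotient.factor hIJ).comp ψ = Ideal.Quotient.mk (Ideal.span {δ * ϖ}) := by
    apply ringHom_eq_of_adjoin_eq_top ϖ hadj
    · intro a
      rw [RingHom.comp_apply, hψA, Ideal.Quotient.factor_mk]
    · rw [RingHom.comp_apply, hψϖ, Ideal.Quotient.factor_mk, Ideal.Quotient.eq,
        Ideal.mem_span_singleton']
      exact ⟨1, by ring⟩
  have h3 : Ideal.Quotient.mk (Ideal.span {δ * ϖ}) x' = Ideal.Quotient.mk (Ideal.span {δ * ϖ}) x := by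
    have h4 := congrArg (fun f : B →+* B ⧸ Ideal.span {δ * ϖ} => f x) hfg
    simp only [RingHom.comp_apply] at h4
    rw [← h4, hx, Ideal.Quotient.factor_mk]
  rw [Ideal.Quotient.eq, Ideal.mem_span_singleton'] at h3
  obtain ⟨r, hr⟩ := h3
  exact ⟨r, by linear_combination -hr⟩

/-- **Leading term of the perturbation** on `1 + ϖ ^ i a`. -/
theorem perturb_leading (ϖ δ : B) (π : A) (hadj : Algebra.adjoin A {ϖ} = ⊤)
    (hπ : ϖ ∣ algebraMap A B π) (hδ : ϖ ∣ δ)
    (ψ : B →+* B ⧸ Ideal.span {algebraMap A B π * δ})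
    (hψA : ∀ a : A, ψ (algebraMap A B a) =
      Ideal.Quotient.mk (Ideal.span {algebraMap A B π * δ}) (algebraMap A B a))
    (hψϖ : ψ ϖ = Ideal.Quotient.mk (Ideal.span {algebraMap A B π * δ}) (ϖ * (1 + δ)))
    (i : ℕ) (a : B) :
    ∃ v s : B, ψ (1 + ϖ ^ i * a) = Ideal.Quotient.mk (Ideal.span {algebraMap A B π * δ}) v ∧
      v = 1 + ϖ ^ i * a + (i : B) * a * δ * ϖ ^ i + δ * ϖ ^ (i + 1) * s := by
  obtain ⟨a', ha'⟩ := Ideal.Quotient.mk_surjective (ψ a)
  obtain ⟨r, hr⟩ := perturb_congr ϖ δ π hadj hπ ψ hψA hψϖ a a' ha'.symm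
  obtain ⟨σ, hσ⟩ := exists_one_add_pow_eq δ i
  obtain ⟨d, hd⟩ := hδ
  refine ⟨1 + (ϖ * (1 + δ)) ^ i * a', d * σ * a + r * (1 + (i : B) * δ + δ ^ 2 * σ), ?_, ?_⟩
  · rw [map_add, map_one, map_mul, map_pow, hψϖ, ← ha', ← map_pow, ← map_mul, ← map_one
      (Ideal.Quotient.mk (Ideal.span {algebraMap A B π * δ})), ← map_add]
  · rw [mul_pow, hσ, hr]
    have h1 : δ ^ 2 = δ * (ϖ * d) := by rw [pow_two, ← hd]
    linear_combination (ϖ ^ i * σ * a) * h1

end Perturb

end Fermat.Agent.S56.LF.LevelBound
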