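import Mathlib
import Fermat.Agent.CFT.Local.UnramPadicAbs
import Fermat.Agent.S56.Flat.TR
import Fermat.Agent.S56.LF.LevelBound.Perturb
import Fermat.Agent.S56.LF.LevelBound.Norm

/-!
# S56 / LF row B2 (LF5), half A: the perturbed `p`-th root

`L0 ≤ K1 ≤ L` finite extensions of `ℚ_p` inside `Ω = PadicAlgCl p`, all with the same residue
field, `p` a uniformiser of `L0`, `ϖ` a uniformiser of `K1`.

* `PropP L'` : Fontaine's property (P) (the conclusion of LF4), taken as a hypothesis of LF5;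
* `exists_perturb` : the ring hom `ψ1 : 𝒪[K1] → 𝒪[K1] ⧸ (p δ)`, identity on `𝒪[L0]`,
  `ϖ ↦ ϖ (1 + δ)`;
* `exists_approx_root` : if `L` has property (P) relative to `K1`, `θ ∈ L`, `θ ^ p = x ∈ 𝒪[K1]`
  and `ψ1 x = x' mod p δ`, then `x'` is a `p`-th power of an element of `L` modulo `p δ`.
-/

set_option autoImplicit false

namespace Fermat.Agent.S56.LF.LevelBound

open scoped NNReal NormedField Valued IntermediateField
open IsLocalRing Polynomial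
open Fermat.Agent.CFT.Local Fermat.Agent.CFT.Local.NormedLocal Fermat.Agent.CFT.Local.PadicExt
open Fermat.Agent.CFT.Local.UnramPadic Fermat.Agent.S56.Flat

variable {p : ℕ} [Fact p.Prime]

/-- **Fontaine's property (P)** for a finite extension `L'` of `ℚ_p` inside `ℚ̄_p` (the
conclusion of LF4): every ring hom `𝒪[L'] → 𝒪[E'] ⧸ (p π)` with `(p - 1) v(π) > 1` forces
`L' ≤ E'`. -/
def PropP (L' : IntermediateField ℚ_[p] (PadicAlgCl p)) : Prop :=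
  ∀ (E' : IntermediateField ℚ_[p] (PadicAlgCl p)) [FiniteDimensional ℚ_[p] E'] (π : 𝒪[E']),
    π ≠ 0 → ‖(π : E')‖ ^ (p - 1) < ‖((p : ℕ) : E')‖ →
    (𝒪[L'] →+* 𝒪[E'] ⧸ Ideal.span {((p : ℕ) : 𝒪[E']) * π}) → L' ≤ E'

section Tower

variable {L0 K1 L : IntermediateField ℚ_[p] (PadicAlgCl p)} [FiniteDimensional ℚ_[p] L0]
  [FiniteDimensional ℚ_[p] K1] [FiniteDimensional ℚ_[p] L]

/-- The perturbation `ψ1 : 𝒪[K1] → 𝒪[K1] ⧸ (p δ)`: identity on `𝒪[L0]`, `ϖ ↦ ϖ (1 + δ)`. -/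
theorem exists_perturb (h01 : L0 ≤ K1) (hp0 : Irreducible ((p : ℕ) : 𝒪[L0]))
    (hc1 : Nat.card 𝓀[K1] = Nat.card 𝓀[L0]) (ϖ : 𝒪[K1]) (hϖ : Irreducible ϖ) (δ : 𝒪[K1]) :
    letI := normedAlgebraOfLE h01
    ∃ ψ1 : 𝒪[K1] →+* 𝒪[K1] ⧸ Ideal.span {algebraMap 𝒪[L0] 𝒪[K1] ((p : ℕ) : 𝒪[L0]) * δ},
      (∀ a : 𝒪[L0], ψ1 (algebraMap 𝒪[L0] 𝒪[K1] a) =
        Ideal.Quotient.mk _ (algebraMap 𝒪[L0] 𝒪[K1] a)) ∧
      ψ1 ϖ = Ideal.Quotient.mk _ (ϖ * (1 + δ)) := by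
  let _ := normedAlgebraOfLE h01
  have hcoef : ∀ i < (minpoly 𝒪[L0] ϖ).natDegree,
      ((p : ℕ) : 𝒪[L0]) ∣ (minpoly 𝒪[L0] ϖ).coeff i := by
    intro i hi
    have h1 := TR.coeff_minpoly_mem_of_le h01 hc1 ϖ hϖ i hi
    rw [show 𝓂[L0] = Ideal.span {((p : ℕ) : 𝒪[L0])} from hp0.maximalIdeal_eq,
      Ideal.mem_span_singleton] at h1
    exact h1
  have h0 : aeval ϖ (minpoly 𝒪[L0] ϖ) = 0 := minpoly.aeval _ _
  have hev := eval₂_mk_perturb_eq_zero (minpoly 𝒪[L0] ϖ) ((p : ℕ) : 𝒪[L0]) hcoef ϖ δ h0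
  obtain ⟨ψ1, h1, h2, -⟩ := TR.exists_lift_of_le h01 hc1 ϖ hϖ _ _ hev
  exact ⟨ψ1, h1, h2⟩

omit [FiniteDimensional ℚ_[p] L0] in
/-- **The perturbed `p`-th root.**  `ψ1` any ring hom `𝒪[K1] → 𝒪[K1] ⧸ (p δ)` with
`(p - 1) v(δ) > 1`; `L` has property (P) relative to `K1`.  If `θ ∈ L`, `θ ^ p = x` and
`ψ1 x = x' mod p δ`, then `x' ≡ t ^ p mod p δ` for some integral `t ∈ L`. -/
theorem exists_approx_root (h1L : K1 ≤ L) (hc2 : Nat.card 𝓀[L] = Nat.card 𝓀[K1])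
    (hdeg : ∀ Θ : 𝒪[L], Irreducible Θ →
      letI := normedAlgebraOfLE h1L
      (minpoly 𝒪[K1] Θ).natDegree ≤ Module.finrank K1 L)
    (hPL : ∀ (E' : IntermediateField ℚ_[p] (PadicAlgCl p)) [FiniteDimensional ℚ_[p] E'],
      K1 ≤ E' → ∀ π : 𝒪[E'], π ≠ 0 → ‖(π : E')‖ ^ (p - 1) < ‖((p : ℕ) : E')‖ →
      (𝒪[L] →+* 𝒪[E'] ⧸ Ideal.span {((p : ℕ) : 𝒪[E']) * π}) → L ≤ E')
    (δ : 𝒪[K1]) (hδ0 : δ ≠ 0) (hδ : ‖(δ : K1)‖ ^ (p - 1) < ‖((p : ℕ) : K1)‖)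
    (I : Ideal 𝒪[K1]) (hI : I = Ideal.span {((p : ℕ) : 𝒪[K1]) * δ})
    (ψ1 : 𝒪[K1] →+* 𝒪[K1] ⧸ I) (x x' : 𝒪[K1]) (hx : ψ1 x = Ideal.Quotient.mk I x')
    {θ : PadicAlgCl p} (hθL : θ ∈ L) (hθ : θ ^ p = ((x : K1) : PadicAlgCl p)) :
    ∃ t : PadicAlgCl p, t ∈ L ∧ ‖t‖ ≤ 1 ∧
      ‖((x' : K1) : PadicAlgCl p) - t ^ p‖ ≤
        ‖((p : ℕ) : PadicAlgCl p)‖ * ‖((δ : K1) : PadicAlgCl p)‖ := by
  subst hI
  let _ := normedAlgebraOfLE h1L
  have hfd1L := finiteDimensional_of_le h1L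
  have hfin := finite_integer K1 L
  obtain ⟨Θ, hΘ⟩ := IsDiscreteValuationRing.exists_irreducible 𝒪[L]
  have hInt : IsIntegral 𝒪[K1] Θ := Algebra.IsIntegral.isIntegral Θ
  set G := minpoly 𝒪[K1] Θ with hG
  have hGm : G.Monic := minpoly.monic hInt
  have hGdeg : 0 < G.natDegree := minpoly.natDegree_pos hInt
  have hp1 : ‖((p : ℕ) : K1)‖ < 1 := by
    rw [norm_natCast_self p K1]
    have hq : (1 : ℝ) < p := by exact_mod_cast (Fact.out : p.Prime).one_lt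
    exact inv_lt_one_of_one_lt₀ hq
  -- the quotient is nontrivial
  have hI1 : Ideal.span {((p : ℕ) : 𝒪[K1]) * δ} ≠ ⊤ := by
    rw [Ne, Ideal.span_singleton_eq_top, Valued.integer.isUnit_iff_norm_eq_one]
    intro h
    have h2 : ‖(((p : ℕ) : 𝒪[K1]) * δ : 𝒪[K1])‖ ≤ ‖((p : ℕ) : K1)‖ := by
      have h3 : ‖(((p : ℕ) : 𝒪[K1]) * δ : 𝒪[K1])‖ = ‖((p : ℕ) : K1)‖ * ‖(δ : K1)‖ := by
        rw [← norm_mul]; rfl
      rw [h3]
      exact mul_le_of_le_one_right (norm_nonneg _) (Valued.integer.norm_le_one δ)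
    linarith
  have hnt : Nontrivial (𝒪[K1] ⧸ Ideal.span {((p : ℕ) : 𝒪[K1]) * δ}) :=
    Ideal.Quotient.nontrivial_iff.mpr hI1
  obtain ⟨Gt, hGt1, hGt2, hGt3⟩ := Polynomial.lifts_and_natDegree_eq_and_monic
    (f := Ideal.Quotient.mk (Ideal.span {((p : ℕ) : 𝒪[K1]) * δ})) (p := G.map ψ1)
    ((Polynomial.mem_lifts _).mpr (Polynomial.map_surjective _ Ideal.Quotient.mk_surjective _))
    (hGm.map ψ1)
  have hGt4 : Gt.natDegree = G.natDegree := by rw [hGt2, hGm.natDegree_map]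
  -- a root `y` of the lift in `Ω`
  let ι1 : 𝒪[K1] →+* PadicAlgCl p := (K1.val : K1 →+* PadicAlgCl p).comp (𝒪[K1]).subtype
  have hdegΩ : (Gt.map ι1).degree ≠ 0 := by
    intro h
    have h2 : (Gt.map ι1).natDegree = 0 := Polynomial.natDegree_eq_zero_iff_degree_le_zero.mpr h.le
    rw [hGt3.natDegree_map, hGt4] at h2
    omega
  obtain ⟨y, hy⟩ := IsAlgClosed.exists_root (Gt.map ι1) hdegΩ
  have hev0 : eval₂ ι1 y Gt = 0 := by
    rw [← Polynomial.eval_map]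
    exact hy
  -- the field `E' = K1(y)`
  obtain ⟨E', hE'⟩ : ∃ E' : IntermediateField ℚ_[p] (PadicAlgCl p), E' = K1 ⊔ ℚ_[p]⟮y⟯ :=
    ⟨_, rfl⟩
  have hfdy : FiniteDimensional ℚ_[p] ℚ_[p]⟮y⟯ :=
    IntermediateField.adjoin.finiteDimensional (Algebra.IsIntegral.isIntegral y)
  have hfdE : FiniteDimensional ℚ_[p] E' := by
    rw [hE']
    exact IntermediateField.finiteDimensional_sup K1 ℚ_[p]⟮y⟯
  have hKE : K1 ≤ E' := by
    rw [hE']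
    exact le_sup_left
  have hyE : y ∈ E' := by
    rw [hE']
    exact (le_sup_right : ℚ_[p]⟮y⟯ ≤ K1 ⊔ ℚ_[p]⟮y⟯) (IntermediateField.mem_adjoin_simple_self _ _)
  have hEle : E' ≤ K1 ⊔ ℚ_[p]⟮y⟯ := hE'.le
  let _ := normedAlgebraOfLE hKE
  have hfdKE := finiteDimensional_of_le hKE
  -- `y` is integral over `𝒪[K1]`
  have hevE : eval₂ (algebraMap 𝒪[K1] E') (⟨y, hyE⟩ : E') Gt = 0 := by
    apply Subtype.val_injective
    have h1 := Polynomial.hom_eval₂ Gt (algebraMap 𝒪[K1] E') (E'.val : E' →+* PadicAlgCl p)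
      (⟨y, hyE⟩ : E')
    have h2 : ((E'.val : E' →+* PadicAlgCl p).comp (algebraMap 𝒪[K1] E')) = ι1 := rfl
    rw [h2] at h1
    exact h1.trans hev0
  have hyint : IsIntegral 𝒪[K1] (⟨y, hyE⟩ : E') := ⟨Gt, hGt3, hevE⟩
  have hy1 : ‖(⟨y, hyE⟩ : E')‖ ≤ 1 := norm_le_one_of_isIntegral hyint
  let yO : 𝒪[E'] := ⟨⟨y, hyE⟩, Valued.integer.mem_iff.mpr hy1⟩
  have h0 : eval₂ (algebraMap 𝒪[K1] 𝒪[E']) yO Gt = 0 := by
    apply Subtype.val_injective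
    have h1 := Polynomial.hom_eval₂ Gt (algebraMap 𝒪[K1] 𝒪[E']) (𝒪[E']).subtype yO
    have h2 : ((𝒪[E']).subtype.comp (algebraMap 𝒪[K1] 𝒪[E'])) = algebraMap 𝒪[K1] E' := rfl
    rw [h2] at h1
    exact h1.trans hevE
  -- the target quotient and the transition map
  let δ' : 𝒪[E'] := algebraMap 𝒪[K1] 𝒪[E'] δ
  have hle : Ideal.span {((p : ℕ) : 𝒪[K1]) * δ} ≤
      (Ideal.span {((p : ℕ) : 𝒪[E']) * δ'}).comap (algebraMap 𝒪[K1] 𝒪[E']) := by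
    rw [Ideal.span_singleton_le_iff_mem, Ideal.mem_comap, map_mul, map_natCast]
    exact Ideal.mem_span_singleton_self _
  let j := Ideal.quotientMap (Ideal.span {((p : ℕ) : 𝒪[E']) * δ'}) (algebraMap 𝒪[K1] 𝒪[E']) hle
  have hev : eval₂ (j.comp ψ1) (Ideal.Quotient.mk (Ideal.span {((p : ℕ) : 𝒪[E']) * δ'}) yO) G
      = 0 := by
    rw [← Polynomial.eval₂_map, ← hGt1, Polynomial.eval₂_map]
    have h3 : j.comp (Ideal.Quotient.mk (Ideal.span {((p : ℕ) : 𝒪[K1]) * δ})) =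
        (Ideal.Quotient.mk (Ideal.span {((p : ℕ) : 𝒪[E']) * δ'})).comp
          (algebraMap 𝒪[K1] 𝒪[E']) := Ideal.quotientMap_comp_mk hle
    rw [h3, ← Polynomial.hom_eval₂, h0, map_zero]
  obtain ⟨ψ, hψ1, -, -⟩ := TR.exists_lift_of_le h1L hc2 Θ hΘ (j.comp ψ1)
    (Ideal.Quotient.mk (Ideal.span {((p : ℕ) : 𝒪[E']) * δ'}) yO) hev
  -- property (P)
  have hδ'0 : δ' ≠ 0 := by
    intro h
    apply hδ0
    apply Subtype.val_injective
    apply Subtype.val_injective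
    have h2 := congrArg (fun z : 𝒪[E'] => ((z : E') : PadicAlgCl p)) h
    exact h2
  have hδ'n : ‖(δ' : E')‖ ^ (p - 1) < ‖((p : ℕ) : E')‖ := by
    have h1 : ‖(δ' : E')‖ = ‖(δ : K1)‖ := rfl
    rw [h1, norm_natCast_self p E', ← norm_natCast_self p K1]
    exact hδ
  have hLE : L ≤ E' := hPL E' hKE δ' hδ'0 hδ'n ψ
  -- degrees: `E' = L`
  have hEL : E' ≤ L := by
    have hfr : Module.finrank ℚ_[p] E' ≤ Module.finrank ℚ_[p] L := by
      rw [← finrank_mul_finrank_of_le hKE, ← finrank_mul_finrank_of_le h1L]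
      apply Nat.mul_le_mul_left
      have hadj := adjoin_eq_top_of_le_sup hKE hyE hEle
      have hyintK : IsIntegral K1 (⟨y, hyE⟩ : E') := Algebra.IsIntegral.isIntegral _
      have h1 : Module.finrank K1 E' = (minpoly K1 (⟨y, hyE⟩ : E')).natDegree := by
        rw [← IntermediateField.adjoin.finrank hyintK, hadj, IntermediateField.finrank_top']
      have h2 : (minpoly K1 (⟨y, hyE⟩ : E')).natDegree ≤ Gt.natDegree := by
        have hroot : aeval (⟨y, hyE⟩ : E') (Gt.map (algebraMap 𝒪[K1] K1)) = 0 := by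
          rw [Polynomial.aeval_map_algebraMap, Polynomial.aeval_def]
          exact hevE
        have hne : Gt.map (algebraMap 𝒪[K1] K1) ≠ 0 := (hGt3.map _).ne_zero
        have h3 := Polynomial.natDegree_le_of_dvd (minpoly.dvd K1 _ hroot) hne
        rwa [hGt3.natDegree_map] at h3
      rw [h1]
      exact h2.trans (hGt4.le.trans (hdeg Θ hΘ))
    exact (IntermediateField.eq_of_le_of_finrank_le hLE hfr).ge
  -- the root
  have hx1 : ‖((x : K1) : PadicAlgCl p)‖ ≤ 1 := Valued.integer.norm_le_one x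
  have hθ1 : ‖θ‖ ≤ 1 := by
    by_contra hcon
    rw [not_le] at hcon
    have h1 : 1 < ‖θ‖ ^ p := one_lt_pow₀ hcon (Fact.out : p.Prime).ne_zero
    rw [← norm_pow, hθ] at h1
    linarith
  let θL : 𝒪[L] := ⟨⟨θ, hθL⟩, Valued.integer.mem_iff.mpr hθ1⟩
  have hθLp : θL ^ p = algebraMap 𝒪[K1] 𝒪[L] x := by
    apply Subtype.val_injective
    apply Subtype.val_injective
    exact hθ
  have h1 : ψ θL ^ p = Ideal.Quotient.mk (Ideal.span {((p : ℕ) : 𝒪[E']) * δ'})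
      (algebraMap 𝒪[K1] 𝒪[E'] x') := by
    rw [← map_pow, hθLp, hψ1, RingHom.comp_apply, hx]
    exact Ideal.quotientMap_mk
  obtain ⟨t0, ht0⟩ := Ideal.Quotient.mk_surjective (ψ θL)
  have h2 : t0 ^ p - algebraMap 𝒪[K1] 𝒪[E'] x' ∈ Ideal.span {((p : ℕ) : 𝒪[E']) * δ'} := by
    rw [← Ideal.Quotient.eq, map_pow, ht0, h1]
  rw [mem_span_singleton_iff_norm_le] at h2
  refine ⟨((t0 : E') : PadicAlgCl p), hEL (t0 : E').2, Valued.integer.norm_le_one t0, ?_⟩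
  rw [norm_sub_rev]
  have h3 : ‖((((p : ℕ) : 𝒪[E']) * δ' : 𝒪[E']) : E')‖ =
      ‖((p : ℕ) : PadicAlgCl p)‖ * ‖((δ : K1) : PadicAlgCl p)‖ := by
    have h4 : ((((p : ℕ) : 𝒪[E']) * δ' : 𝒪[E']) : E') = ((p : ℕ) : E') * (δ' : E') := rfl
    rw [h4, norm_mul]
    rfl
  rw [h3] at h2
  exact h2

end Tower

end Fermat.Agent.S56.LF.LevelBound
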