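import Mathlib
import Fermat.Agent.S56.LF.LevelBound.Approx

/-!
# S56 / LF row B2 (LF5): the contract of the row (statements only)

* `LevelBoundStatement p` : the exit (LF5 in norm form);
* `MainStatement p` : SEAM 2 (Main → Reduce), at a field `K2` with uniformiser `ϖ` in norm form;
* `MainTowerStatement p` : the same on an abstract tower `L0 ≤ K1 ≤ L` with equal residue fields;
* `FamilyStatement p` : the counting step (a family of `p`-th powers of `L` in `K1`, indexed by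
  the non-zero residues, with pairwise quotients of exact level `p e0 - 1`, cannot exist).

`Tower.lean` proves `MainTowerStatement p → MainStatement p`, `Main.lean` proves
`FamilyStatement p → MainTowerStatement p`, `Family.lean` proves `FamilyStatement p`,
`Flat/LF5/Reduce.lean` proves `MainStatement p → LevelBoundStatement p`.
-/

set_option autoImplicit false

namespace Fermat.Agent.S56.LF.LevelBound

open scoped NNReal NormedField Valued IntermediateField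
open IsLocalRing
open Fermat.Agent.CFT.Local.NormedLocal Fermat.Agent.CFT.Local.PadicExt

/-- **LF5, exit literal.** -/
def LevelBoundStatement (p : ℕ) [Fact p.Prime] : Prop :=
  p ≠ 2 → ∀ (K L' : IntermediateField ℚ_[p] (PadicAlgCl p)) [FiniteDimensional ℚ_[p] K]
    [FiniteDimensional ℚ_[p] L'], PropP L' →
    ∀ {ζ : PadicAlgCl p}, IsPrimitiveRoot ζ p → ζ ∈ K →
    ∀ {u θ : PadicAlgCl p}, u ∈ K → u ≠ 0 → θ ∈ L' ⊔ K → θ ^ p = u →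
    ∃ w ∈ K, w ≠ 0 ∧ ‖u / w ^ p - 1‖ ≤ ‖((p : ℕ) : PadicAlgCl p)‖

/-- **SEAM 2 (Main → Reduce).** `ϖ` is a uniformiser of `K2` (norm form), `e(K2) = (p-1) e0`. -/
def MainStatement (p : ℕ) [Fact p.Prime] : Prop :=
  ∀ {L' : IntermediateField ℚ_[p] (PadicAlgCl p)} [FiniteDimensional ℚ_[p] L'], PropP L' →
    ∀ (K2 : IntermediateField ℚ_[p] (PadicAlgCl p)) [FiniteDimensional ℚ_[p] K2]
      {ϖ : PadicAlgCl p}, ϖ ∈ K2 → ‖ϖ‖ < 1 → (∀ x ∈ K2, ‖x‖ < 1 → ‖x‖ ≤ ‖ϖ‖) →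
    ∀ {e0 : ℕ}, ‖((p : ℕ) : PadicAlgCl p)‖ = ‖ϖ‖ ^ ((p - 1) * e0) →
    ∀ {u θ : PadicAlgCl p}, u ∈ K2 → θ ∈ L' ⊔ K2 → θ ^ p = u →
      (∀ i : ℕ, 1 ≤ i → i + 2 ≤ (p - 1) * e0 → ¬ p ∣ i → ‖u - 1‖ ≠ ‖ϖ‖ ^ i) ∧
      (3 ≤ (p - 1) * e0 → ‖u‖ ≠ ‖ϖ‖)

/-- **The main lemma on an abstract tower** `L0 ≤ K1 ≤ L`: `p` a uniformiser of `L0`, equal
residue fields, `L` with property (P) relative to `K1`, more non-zero residues than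
`p ^ [L : K1]`. -/
def MainTowerStatement (p : ℕ) [Fact p.Prime] : Prop :=
  ∀ {L0 K1 L : IntermediateField ℚ_[p] (PadicAlgCl p)} [FiniteDimensional ℚ_[p] L0]
    [FiniteDimensional ℚ_[p] K1] [FiniteDimensional ℚ_[p] L] (_h01 : L0 ≤ K1) (h1L : K1 ≤ L),
    Irreducible ((p : ℕ) : 𝒪[L0]) →
    Nat.card 𝓀[K1] = Nat.card 𝓀[L0] → Nat.card 𝓀[L] = Nat.card 𝓀[K1] →
    (∀ (E' : IntermediateField ℚ_[p] (PadicAlgCl p)) [FiniteDimensional ℚ_[p] E'],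
      K1 ≤ E' → ∀ π : 𝒪[E'], π ≠ 0 → ‖(π : E')‖ ^ (p - 1) < ‖((p : ℕ) : E')‖ →
      (𝒪[L] →+* 𝒪[E'] ⧸ Ideal.span {((p : ℕ) : 𝒪[E']) * π}) → L ≤ E') →
    (letI := normedAlgebraOfLE h1L
     p ^ Module.finrank K1 L < Nat.card 𝓀[K1] - 1) →
    ∀ {ϖ : 𝒪[K1]}, Irreducible ϖ →
    ∀ {e0 : ℕ}, ‖((p : ℕ) : K1)‖ = ‖(ϖ : K1)‖ ^ ((p - 1) * e0) →
    ∀ {u θ : PadicAlgCl p}, u ∈ K1 → θ ∈ L → θ ^ p = u →
      (∀ i : ℕ, 1 ≤ i → i + 2 ≤ (p - 1) * e0 → ¬ p ∣ i → ‖u - 1‖ ≠ ‖(ϖ : K1)‖ ^ i) ∧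
      (3 ≤ (p - 1) * e0 → ‖u‖ ≠ ‖(ϖ : K1)‖)

/-- **The counting step.** -/
def FamilyStatement (p : ℕ) [Fact p.Prime] : Prop :=
  ∀ {K1 L : IntermediateField ℚ_[p] (PadicAlgCl p)} [FiniteDimensional ℚ_[p] K1]
    [FiniteDimensional ℚ_[p] L] (h1L : K1 ≤ L) {ϖ : 𝒪[K1]}, Irreducible ϖ →
    ∀ {e0 : ℕ}, ‖((p : ℕ) : K1)‖ = ‖(ϖ : K1)‖ ^ ((p - 1) * e0) → 1 ≤ e0 →
    (letI := normedAlgebraOfLE h1L
     p ^ Module.finrank K1 L < Nat.card 𝓀[K1] - 1) →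
    ∀ (v : (𝓀[K1])ˣ → K1) (s : (𝓀[K1])ˣ → L), (∀ c, v c ≠ 0) →
    (∀ c, ((s c : L) : PadicAlgCl p) ^ p = ((v c : K1) : PadicAlgCl p)) →
    (∀ c c', c ≠ c' → ‖v c / v c' - 1‖ = ‖(ϖ : K1)‖ ^ (p * e0 - 1)) → False

end Fermat.Agent.S56.LF.LevelBound
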