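import Mathlib
import Fermat.Agent.S56.LF.LevelBound.Statement

/-!
# S56 / LF row B2 (LF5): `MainStatement p → LevelBoundStatement p`, assembly from three bricks

* `ZetaStatement p` : `‖ζ - 1‖ ^ (p - 1) = ‖p‖` for a primitive `p`-th root of unity;
* `QuadStatement p` : a finite `K` with uniformiser `ϖ` (norm form) has a finite extension
  `K2 ∋ r`, `r ^ 2 = ϖ`, with uniformiser `r`;
* `PeelStatement p` : modulo `p`-th powers a unit of `K` is `≡ 1 mod p` or has exact level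
  `i`, `1 ≤ i < e`, `p ∤ i`.

`reduce_of` : given these, `MainStatement p → LevelBoundStatement p`.  Proof: `e(K) = (p - 1) e0`
by `ζ ∈ K`; pass to `K2` (ramification `(p - 1) (2 e0) ≥ 4`).  If `p ∤ v(u)`, a combination
`u ^ a r ^ (p b)` is a uniformiser of `K2` with a `p`-th root in `L' K2`: excluded by clause 2 of
the main statement.  Otherwise peel `u / ϖ ^ (p m)` in `K`: an exact level `i < e` prime to `p`
becomes the level `2 i ≤ 2 e - 2` in `K2`, excluded by clause 1.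
-/

set_option autoImplicit false

namespace Fermat.Agent.S56.LF.LevelBound.ReduceAsm

open scoped NNReal NormedField Valued IntermediateField
open IsLocalRing
open Fermat.Agent.CFT.Local Fermat.Agent.CFT.Local.NormedLocal Fermat.Agent.CFT.Local.PadicExt

variable {p : ℕ} [Fact p.Prime]

/-- A uniformiser of `K`, in norm form. -/
theorem exists_uniformizer (K : IntermediateField ℚ_[p] (PadicAlgCl p))
    [FiniteDimensional ℚ_[p] K] :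
    ∃ ϖ : PadicAlgCl p, ϖ ∈ K ∧ ϖ ≠ 0 ∧ ‖ϖ‖ < 1 ∧ (∀ x ∈ K, ‖x‖ < 1 → ‖x‖ ≤ ‖ϖ‖) ∧
      ∀ x ∈ K, x ≠ 0 → ∃ n : ℤ, ‖x‖ = ‖ϖ‖ ^ n := by
  obtain ⟨ϖ, hϖ⟩ := IsDiscreteValuationRing.exists_irreducible 𝒪[K]
  have hϖpos : 0 < ‖(ϖ : K)‖ := Valued.integer.norm_irreducible_pos hϖ
  have hϖlt : ‖(ϖ : K)‖ < 1 := Valued.integer.norm_irreducible_lt_one hϖ
  refine ⟨((ϖ : K) : PadicAlgCl p), (ϖ : K).2, ?_, hϖlt, ?_, ?_⟩
  · intro h
    have h0 : ‖(ϖ : K)‖ = 0 := by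
      have : ‖(ϖ : K)‖ = ‖((ϖ : K) : PadicAlgCl p)‖ := rfl
      rw [this, h, norm_zero]
    exact hϖpos.ne' h0
  · intro x hx hx1
    have hxO : (⟨x, hx⟩ : K) ∈ 𝒪[K] := Valued.integer.mem_iff.mpr (le_of_lt hx1)
    have hm : (⟨⟨x, hx⟩, hxO⟩ : 𝒪[K]) ∈ 𝓂[K] := by
      rw [IsLocalRing.mem_maximalIdeal, mem_nonunits_iff, Valued.integer.isUnit_iff_norm_eq_one]
      exact hx1.ne
    rw [show 𝓂[K] = Ideal.span {ϖ} from hϖ.maximalIdeal_eq, mem_span_singleton_iff_norm_le] at hm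
    exact hm
  · intro x hx hx0
    have hx0' : (⟨x, hx⟩ : K) ≠ 0 := by
      intro h
      exact hx0 (congrArg Subtype.val h)
    obtain ⟨n, hn⟩ := exists_norm_eq_zpow hϖ hx0'
    exact ⟨n, hn⟩

/-- The quadratic step. -/
def QuadStatement (p : ℕ) [Fact p.Prime] : Prop :=
  ∀ (K : IntermediateField ℚ_[p] (PadicAlgCl p)) [FiniteDimensional ℚ_[p] K]
    {ϖ : PadicAlgCl p}, ϖ ∈ K → ϖ ≠ 0 → ‖ϖ‖ < 1 → (∀ x ∈ K, ‖x‖ < 1 → ‖x‖ ≤ ‖ϖ‖) →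
    ∃ (K2 : IntermediateField ℚ_[p] (PadicAlgCl p)) (r : PadicAlgCl p),
      FiniteDimensional ℚ_[p] K2 ∧ K ≤ K2 ∧ r ∈ K2 ∧ r ^ 2 = ϖ ∧
      (∀ x ∈ K2, ‖x‖ < 1 → ‖x‖ ≤ ‖r‖)

/-- Peeling, in norm form. -/
def PeelStatement (p : ℕ) [Fact p.Prime] : Prop :=
  ∀ (K : IntermediateField ℚ_[p] (PadicAlgCl p)) [FiniteDimensional ℚ_[p] K]
    {ϖ : PadicAlgCl p}, ϖ ∈ K → ‖ϖ‖ < 1 → (∀ x ∈ K, ‖x‖ < 1 → ‖x‖ ≤ ‖ϖ‖) →
    ∀ {e : ℕ}, 1 ≤ e → ‖((p : ℕ) : PadicAlgCl p)‖ = ‖ϖ‖ ^ e →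
    ∀ {u : PadicAlgCl p}, u ∈ K → ‖u‖ = 1 →
      (∃ w ∈ K, w ≠ 0 ∧ ‖u / w ^ p - 1‖ ≤ ‖((p : ℕ) : PadicAlgCl p)‖) ∨
      (∃ w ∈ K, w ≠ 0 ∧ ∃ i : ℕ, 1 ≤ i ∧ i < e ∧ ¬ p ∣ i ∧ ‖u / w ^ p - 1‖ = ‖ϖ‖ ^ i)

/-- The norm of `ζ - 1`. -/
def ZetaStatement (p : ℕ) [Fact p.Prime] : Prop :=
  ∀ {ζ : PadicAlgCl p}, IsPrimitiveRoot ζ p →
    ‖ζ - 1‖ ^ (p - 1) = ‖((p : ℕ) : PadicAlgCl p)‖

theorem norm_natCast_self' : ‖((p : ℕ) : PadicAlgCl p)‖ = (p : ℝ)⁻¹ := by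
  have h : ‖((p : ℕ) : PadicAlgCl p)‖ = ‖((p : ℕ) : ℚ_[p])‖ := by
    rw [← map_natCast (algebraMap ℚ_[p] (PadicAlgCl p)) p, norm_algebraMap']
  rw [h]
  exact Padic.norm_p

/-- **Reduce**, from the three bricks. -/
theorem reduce_of (hZ : ZetaStatement p) (hQ : QuadStatement p) (hPeel : PeelStatement p)
    (hM : MainStatement p) : LevelBoundStatement p := by
  intro hp2 K L' _ _ hP ζ hζ hζK u θ huK hu0 hθ hθu
  have pp : p.Prime := Fact.out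
  have hp3 : 3 ≤ p := by
    have := pp.two_le
    omega
  obtain ⟨ϖ, hϖK, hϖ0, hϖ1, hmax, hval⟩ := exists_uniformizer K
  have hϖpos : 0 < ‖ϖ‖ := norm_pos_iff.mpr hϖ0
  -- `e0`
  have hpn : ‖((p : ℕ) : PadicAlgCl p)‖ = (p : ℝ)⁻¹ := norm_natCast_self'
  have hp1 : (1 : ℝ) < p := by exact_mod_cast pp.one_lt
  have hpn1 : ‖((p : ℕ) : PadicAlgCl p)‖ < 1 := by
    rw [hpn]
    exact inv_lt_one_of_one_lt₀ hp1
  have hpn0 : 0 < ‖((p : ℕ) : PadicAlgCl p)‖ := by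
    rw [hpn]
    positivity
  have hz := hZ hζ
  have hz1 : ‖ζ - 1‖ < 1 := by
    by_contra hcon
    rw [not_lt] at hcon
    have : (1 : ℝ) ≤ ‖ζ - 1‖ ^ (p - 1) := one_le_pow₀ hcon
    rw [hz] at this
    exact absurd hpn1 (not_lt.mpr this)
  have hz0 : ζ - 1 ≠ 0 := by
    intro h
    rw [h, norm_zero, zero_pow (by omega)] at hz
    exact hpn0.ne hz
  obtain ⟨n0, hn0⟩ := hval (ζ - 1) (K.sub_mem hζK K.one_mem) hz0
  have hn0pos : 0 < n0 := by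
    by_contra hcon
    rw [not_lt] at hcon
    have h1 : (1 : ℝ) ≤ ‖ϖ‖ ^ n0 := one_le_zpow_of_nonpos₀ hϖpos hϖ1.le hcon
    rw [← hn0] at h1
    exact absurd hz1 (not_lt.mpr h1)
  obtain ⟨e0, rfl⟩ : ∃ e0 : ℕ, n0 = (e0 : ℤ) := ⟨n0.toNat, (Int.toNat_of_nonneg hn0pos.le).symm⟩
  have he0 : 1 ≤ e0 := by omega
  rw [zpow_natCast] at hn0
  have hpe : ‖((p : ℕ) : PadicAlgCl p)‖ = ‖ϖ‖ ^ ((p - 1) * e0) := by
    rw [← hz, hn0, ← pow_mul, mul_comm]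
  -- the quadratic extension
  obtain ⟨K2, r, hfd, hKK2, hrK2, hr2, hmax2⟩ := hQ K hϖK hϖ0 hϖ1 hmax
  have hrn : ‖r‖ ^ 2 = ‖ϖ‖ := by rw [← norm_pow, hr2]
  have hr0 : r ≠ 0 := by
    intro h
    rw [h] at hr2
    exact hϖ0 (by rw [← hr2]; ring)
  have hrpos : 0 < ‖r‖ := norm_pos_iff.mpr hr0
  have hr1 : ‖r‖ < 1 := by
    by_contra hcon
    rw [not_lt] at hcon
    have : (1 : ℝ) ≤ ‖r‖ ^ 2 := one_le_pow₀ hcon
    rw [hrn] at this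
    exact absurd hϖ1 (not_lt.mpr this)
  have hpe2 : ‖((p : ℕ) : PadicAlgCl p)‖ = ‖r‖ ^ ((p - 1) * (2 * e0)) := by
    rw [hpe, ← hrn, ← pow_mul]
    congr 1
    ring
  have hMain := fun {u θ : PadicAlgCl p} (h1 : u ∈ K2) (h2 : θ ∈ L' ⊔ K2) (h3 : θ ^ p = u) =>
    hM hP K2 hrK2 hr1 hmax2 hpe2 h1 h2 h3
  have hsup : L' ⊔ K ≤ L' ⊔ K2 := sup_le_sup_left hKK2 L'
  have hK2sup : K2 ≤ L' ⊔ K2 := le_sup_right
  have h3e : 3 ≤ (p - 1) * (2 * e0) := by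
    have : 2 ≤ p - 1 := by omega
    nlinarith
  -- the valuation of `u` is divisible by `p`
  obtain ⟨n, hn⟩ := hval u huK hu0
  have hθ0 : θ ≠ 0 := by
    intro h
    rw [h, zero_pow pp.ne_zero] at hθu
    exact hu0 hθu.symm
  have hdvd : (p : ℤ) ∣ n := by
    by_contra hcon
    have hcop : IsCoprime (2 * n) (p : ℤ) := by
      have hprime : Prime (p : ℤ) := Nat.prime_iff_prime_int.mp pp
      rw [isCoprime_comm]
      refine (Prime.coprime_iff_not_dvd hprime).mpr ?_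
      intro h
      rcases hprime.dvd_mul.mp h with h | h
      · have h2 : (p : ℤ) ≤ 2 := Int.le_of_dvd (by norm_num) h
        have : p ≤ 2 := by exact_mod_cast h2
        omega
      · exact hcon h
    obtain ⟨a, b, hab⟩ := hcop
    have hu'' : u ^ a * r ^ ((p : ℤ) * b) ∈ K2 :=
      K2.mul_mem (zpow_mem (hKK2 huK) a) (zpow_mem hrK2 _)
    have hθ'' : θ ^ a * r ^ b ∈ L' ⊔ K2 :=
      (L' ⊔ K2).mul_mem (zpow_mem (hsup hθ) a) (zpow_mem (hK2sup hrK2) b)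
    have hpow : (θ ^ a * r ^ b) ^ p = u ^ a * r ^ ((p : ℤ) * b) := by
      rw [mul_pow, ← hθu, ← zpow_natCast (θ ^ a) p, ← zpow_mul, ← zpow_natCast (r ^ b) p,
        ← zpow_mul, mul_comm a (p : ℤ), zpow_mul, zpow_natCast, mul_comm b (p : ℤ)]
    have hnorm : ‖u ^ a * r ^ ((p : ℤ) * b)‖ = ‖r‖ := by
      rw [norm_mul, norm_zpow, norm_zpow, hn, ← hrn, ← zpow_natCast (‖r‖) 2, ← zpow_mul,
        ← zpow_mul, ← zpow_add₀ hrpos.ne']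
      have : ((2 : ℕ) : ℤ) * (n * a) + (p : ℤ) * b = 1 := by
        push_cast
        linarith
      rw [this, zpow_one]
    exact (hMain hu'' hθ'' hpow).2 h3e hnorm
  obtain ⟨m, rfl⟩ := hdvd
  -- peel
  have hw0K : ϖ ^ m ∈ K := zpow_mem hϖK m
  have hw00 : ϖ ^ m ≠ 0 := zpow_ne_zero m hϖ0
  have hu1K : u / (ϖ ^ m) ^ p ∈ K := K.div_mem huK (pow_mem hw0K p)
  have hu1n : ‖u / (ϖ ^ m) ^ p‖ = 1 := by
    rw [norm_div, norm_pow, norm_zpow, hn, ← zpow_natCast (‖ϖ‖ ^ m) p, ← zpow_mul,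
      mul_comm m (p : ℤ)]
    exact div_self (zpow_ne_zero _ hϖpos.ne')
  have he1 : 1 ≤ (p - 1) * e0 := by
    have : 2 ≤ p - 1 := by omega
    nlinarith
  rcases hPeel K hϖK hϖ1 hmax he1 hpe hu1K hu1n with ⟨w, hwK, hw0, hle⟩ | ⟨w, hwK, hw0, i, hi1, hie, hpi, hlev⟩
  · refine ⟨ϖ ^ m * w, K.mul_mem hw0K hwK, mul_ne_zero hw00 hw0, ?_⟩
    have : u / (ϖ ^ m * w) ^ p = u / (ϖ ^ m) ^ p / w ^ p := by
      rw [mul_pow, div_div]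
    rw [this]
    exact hle
  · exfalso
    have hu' : u / (ϖ ^ m) ^ p / w ^ p ∈ K2 := hKK2 (K.div_mem hu1K (pow_mem hwK p))
    have hθ' : θ / (ϖ ^ m * w) ∈ L' ⊔ K2 :=
      (L' ⊔ K2).div_mem (hsup hθ) (hK2sup (hKK2 (K.mul_mem hw0K hwK)))
    have hpow : (θ / (ϖ ^ m * w)) ^ p = u / (ϖ ^ m) ^ p / w ^ p := by
      rw [div_pow, hθu, mul_pow, div_div]
    have hpi2 : ¬ p ∣ 2 * i := by
      intro h
      rcases (Nat.Prime.dvd_mul pp).mp h with h | h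
      · have := Nat.le_of_dvd (by norm_num) h
        omega
      · exact hpi h
    have hi2 : 2 * i + 2 ≤ (p - 1) * (2 * e0) := by
      have : (p - 1) * (2 * e0) = 2 * ((p - 1) * e0) := by ring
      omega
    refine (hMain hu' hθ' hpow).1 (2 * i) (by omega) hi2 hpi2 ?_
    rw [hlev, ← hrn, ← pow_mul]

end Fermat.Agent.S56.LF.LevelBound.ReduceAsm
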