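import Mathlib
import Fermat.Agent.S56.Flat.TRExtras
import Fermat.Agent.S56.LF.LevelBound.Statement

/-!
# S56 / LF row B2 (LF5), half A: case (ii) of the main lemma on an abstract tower

`L0 ≤ K1 ≤ L` as in `MainTowerStatement`.  A unit `u ∈ K1` of exact level `i`, `1 ≤ i`,
`i + 2 ≤ e = (p - 1) e0`, `p ∤ i`, has no `p`-th root in `L`: for every non-zero residue `c`
the perturbation `ϖ ↦ ϖ (1 + c ϖ ^ D)`, `D = p e0 - 1 - i`, produces `v c ∈ K1 ∩ L^p` with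
`v c ≡ u + i a c ϖ ^ (p e0 - 1)` modulo `ϖ ^ (p e0)`, and `FamilyStatement` excludes such a
family.
-/

set_option autoImplicit false

namespace Fermat.Agent.S56.LF.LevelBound

open scoped NNReal NormedField Valued IntermediateField
open IsLocalRing Polynomial
open Fermat.Agent.CFT.Local Fermat.Agent.CFT.Local.NormedLocal Fermat.Agent.CFT.Local.PadicExt
open Fermat.Agent.CFT.Local.UnramPadic Fermat.Agent.S56.Flat

variable {p : ℕ} [Fact p.Prime]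

section Facts

variable (E : IntermediateField ℚ_[p] (PadicAlgCl p))

/-- Integers prime to `p` are units. -/
theorem norm_natCast_eq_one {i : ℕ} (hpi : ¬ p ∣ i) : ‖((i : ℕ) : E)‖ = 1 := by
  have h : ‖((i : ℕ) : E)‖ = ‖((i : ℕ) : ℚ_[p])‖ := by
    rw [← map_natCast (algebraMap ℚ_[p] E) i, norm_algebraMap']
  rw [h, Padic.norm_natCast_eq_one_iff]
  exact (Nat.Prime.coprime_iff_not_dvd Fact.out).mpr hpi

variable {E}

/-- An integer with non-zero residue has norm one. -/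
theorem norm_eq_one_of_residue_ne_zero {x : 𝒪[E]} (h : residue 𝒪[E] x ≠ 0) : ‖(x : E)‖ = 1 :=
  Valued.integer.isUnit_iff_norm_eq_one.mp ((residue_ne_zero_iff_isUnit x).mp h)

/-- Lifts of distinct residues differ by a unit. -/
theorem norm_sub_eq_one_of_residue_ne {x y : 𝒪[E]} (h : residue 𝒪[E] x ≠ residue 𝒪[E] y) :
    ‖(x : E) - (y : E)‖ = 1 := by
  have h1 : residue 𝒪[E] (x - y) ≠ 0 := by
    rw [map_sub]
    exact sub_ne_zero.mpr h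
  have h2 := norm_eq_one_of_residue_ne_zero h1
  rw [AddSubgroupClass.coe_sub] at h2
  exact h2

end Facts

section Level

variable {K : Type*} [NormedField K] [IsUltrametricDist K]

/-- The level of the quotient of two members of the family of case (ii). -/
theorem norm_div_sub_one_family {ϖ a c c' s s' iK v v' : K} {i D : ℕ} (hϖ0 : 0 < ‖ϖ‖)
    (hϖ1 : ‖ϖ‖ < 1) (ha : ‖a‖ = 1) (hi : ‖iK‖ = 1) (hcc : ‖c - c'‖ = 1)
    (hs : ‖c * s - c' * s'‖ ≤ 1)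
    (hv : v = 1 + ϖ ^ i * a + iK * a * (c * ϖ ^ D) * ϖ ^ i + (c * ϖ ^ D) * ϖ ^ (i + 1) * s)
    (hv' : v' = 1 + ϖ ^ i * a + iK * a * (c' * ϖ ^ D) * ϖ ^ i + (c' * ϖ ^ D) * ϖ ^ (i + 1) * s')
    (hv'n : ‖v'‖ = 1) : ‖v / v' - 1‖ = ‖ϖ‖ ^ (i + D) := by
  have hv'0 : v' ≠ 0 := by
    intro h
    rw [h, norm_zero] at hv'n
    exact zero_ne_one hv'n
  have h1 : v - v' = ϖ ^ (i + D) * (iK * a * (c - c') + ϖ * (c * s - c' * s')) := by
    rw [hv, hv']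
    ring
  have hA : ‖iK * a * (c - c')‖ = 1 := by
    rw [norm_mul, norm_mul, hi, ha, hcc]
    norm_num
  have hB : ‖ϖ * (c * s - c' * s')‖ < 1 := by
    rw [norm_mul]
    calc ‖ϖ‖ * ‖c * s - c' * s'‖ ≤ ‖ϖ‖ * 1 := mul_le_mul_of_nonneg_left hs hϖ0.le
      _ = ‖ϖ‖ := mul_one _
      _ < 1 := hϖ1
  have hAB : ‖iK * a * (c - c') + ϖ * (c * s - c' * s')‖ = 1 := by
    have hne : ‖iK * a * (c - c')‖ ≠ ‖ϖ * (c * s - c' * s')‖ := by
      rw [hA]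
      exact hB.ne'
    rw [IsUltrametricDist.norm_add_eq_max_of_norm_ne_norm hne, hA, max_eq_left hB.le]
  have h2 : v / v' - 1 = (v - v') / v' := by
    field_simp
  rw [h2, norm_div, hv'n, div_one, h1, norm_mul, hAB, mul_one, norm_pow]

end Level

/-- **Case (ii) of the main lemma on a tower.** -/
theorem case_two (hF : FamilyStatement p)
    {L0 K1 L : IntermediateField ℚ_[p] (PadicAlgCl p)} [FiniteDimensional ℚ_[p] L0]
    [FiniteDimensional ℚ_[p] K1] [FiniteDimensional ℚ_[p] L] (h01 : L0 ≤ K1) (h1L : K1 ≤ L)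
    (hp0 : Irreducible ((p : ℕ) : 𝒪[L0]))
    (hc1 : Nat.card 𝓀[K1] = Nat.card 𝓀[L0]) (hc2 : Nat.card 𝓀[L] = Nat.card 𝓀[K1])
    (hPL : ∀ (E' : IntermediateField ℚ_[p] (PadicAlgCl p)) [FiniteDimensional ℚ_[p] E'],
      K1 ≤ E' → ∀ π : 𝒪[E'], π ≠ 0 → ‖(π : E')‖ ^ (p - 1) < ‖((p : ℕ) : E')‖ →
      (𝒪[L] →+* 𝒪[E'] ⧸ Ideal.span {((p : ℕ) : 𝒪[E']) * π}) → L ≤ E')
    (hcount : letI := normedAlgebraOfLE h1L
      p ^ Module.finrank K1 L < Nat.card 𝓀[K1] - 1)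
    {ϖ : 𝒪[K1]} (hϖ : Irreducible ϖ) {e0 : ℕ}
    (he : ‖((p : ℕ) : K1)‖ = ‖(ϖ : K1)‖ ^ ((p - 1) * e0))
    {u θ : PadicAlgCl p} (hu : u ∈ K1) (hθ : θ ∈ L) (hθu : θ ^ p = u)
    (i : ℕ) (hi1 : 1 ≤ i) (hi2 : i + 2 ≤ (p - 1) * e0) (hpi : ¬ p ∣ i) :
    ‖u - 1‖ ≠ ‖(ϖ : K1)‖ ^ i := by
  intro hlev
  have pp : p.Prime := Fact.out
  have hp2 : 2 ≤ p := pp.two_le
  have hϖ0 : 0 < ‖(ϖ : K1)‖ := Valued.integer.norm_irreducible_pos hϖ
  have hϖ1 : ‖(ϖ : K1)‖ < 1 := Valued.integer.norm_irreducible_lt_one hϖ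
  have he0 : 1 ≤ e0 := by
    rcases Nat.eq_zero_or_pos e0 with h | h
    · rw [h] at hi2; omega
    · exact h
  have hpe : p * e0 = (p - 1) * e0 + e0 := by
    have : p = (p - 1) + 1 := by omega
    nth_rewrite 1 [this]
    ring
  -- the exponent of the perturbation
  obtain ⟨D, hD⟩ : ∃ D, D = p * e0 - 1 - i := ⟨_, rfl⟩
  have hDi : i + D = p * e0 - 1 := by omega
  have hD1 : e0 + 1 ≤ D := by omega
  -- `u = 1 + ϖ ^ i a`, `a` a unit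
  have hu1 : ‖(⟨u, hu⟩ : K1) - 1‖ = ‖(ϖ : K1)‖ ^ i := hlev
  have hun : ‖(⟨u, hu⟩ : K1)‖ ≤ 1 := by
    have h1 : (⟨u, hu⟩ : K1) = 1 + ((⟨u, hu⟩ : K1) - 1) := by ring
    rw [h1]
    refine (IsUltrametricDist.norm_add_le_max _ _).trans (max_le (by rw [norm_one]) ?_)
    rw [hu1]
    exact pow_le_one₀ hϖ0.le hϖ1.le
  let uO : 𝒪[K1] := ⟨⟨u, hu⟩, Valued.integer.mem_iff.mpr hun⟩
  have huO1 : ((uO - 1 : 𝒪[K1]) : K1) = (⟨u, hu⟩ : K1) - 1 := by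
    rw [AddSubgroupClass.coe_sub]
    rfl
  have hmem : uO - 1 ∈ Ideal.span {ϖ ^ i} := by
    rw [mem_span_singleton_iff_norm_le, huO1, Subring.coe_pow, norm_pow]
    exact hu1.le
  rw [Ideal.mem_span_singleton'] at hmem
  obtain ⟨a, ha⟩ := hmem
  have huO : uO = 1 + ϖ ^ i * a := by
    rw [mul_comm, ha]
    ring
  have han : ‖(a : K1)‖ = 1 := by
    have h1 : ((uO - 1 : 𝒪[K1]) : K1) = (a : K1) * (ϖ : K1) ^ i := by
      rw [← ha, Subring.coe_mul, Subring.coe_pow]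
    have h2 : ‖(a : K1)‖ * ‖(ϖ : K1)‖ ^ i = ‖(ϖ : K1)‖ ^ i := by
      have h3 : ‖(a : K1) * (ϖ : K1) ^ i‖ = ‖(ϖ : K1)‖ ^ i := by
        rw [← h1, huO1]
        exact hu1
      rwa [norm_mul, norm_pow] at h3
    have h3 : 0 < ‖(ϖ : K1)‖ ^ i := pow_pos hϖ0 i
    exact (mul_eq_right₀ h3.ne').mp h2
  -- the perturbation data
  let _ := normedAlgebraOfLE h01
  let _ := normedAlgebraOfLE h1L
  have hadj := TR.adjoin_eq_top_of_le h01 hc1 ϖ hϖ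
  have hpϖ : ‖((p : ℕ) : K1)‖ ≤ ‖(ϖ : K1)‖ := by
    rw [he]
    calc ‖(ϖ : K1)‖ ^ ((p - 1) * e0) ≤ ‖(ϖ : K1)‖ ^ 1 :=
          (pow_le_pow_iff_of_lt_one' hϖ0 hϖ1).mpr (by omega)
      _ = ‖(ϖ : K1)‖ := pow_one _
  have hπ : ϖ ∣ algebraMap 𝒪[L0] 𝒪[K1] ((p : ℕ) : 𝒪[L0]) := by
    rw [map_natCast, ← Ideal.mem_span_singleton, mem_span_singleton_iff_norm_le]
    exact hpϖ
  have hdeg : ∀ Θ : 𝒪[L], Irreducible Θ → (minpoly 𝒪[K1] Θ).natDegree ≤ Module.finrank K1 L :=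
    fun Θ hΘ => (TRExtras.natDegree_minpoly_of_le h1L hc2 hΘ).le
  have hθu' : θ ^ p = ((uO : K1) : PadicAlgCl p) := hθu
  -- for every non-zero residue: a `p`-th power of `L` in `K1`
  have key : ∀ c : (𝓀[K1])ˣ, ∃ (cO v s : 𝒪[K1]) (r : L), residue 𝒪[K1] cO = (c : 𝓀[K1]) ∧
      v = 1 + ϖ ^ i * a + (i : 𝒪[K1]) * a * (cO * ϖ ^ D) * ϖ ^ i + (cO * ϖ ^ D) * ϖ ^ (i + 1) * s ∧
      ‖(v : K1)‖ = 1 ∧ ((r : L) : PadicAlgCl p) ^ p = ((v : K1) : PadicAlgCl p) := by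
    intro c
    obtain ⟨cO, hcO⟩ := residue_surjective (c : 𝓀[K1])
    have hcn : ‖(cO : K1)‖ = 1 := by
      apply norm_eq_one_of_residue_ne_zero
      rw [hcO]
      exact c.ne_zero
    have hδn : ‖((cO * ϖ ^ D : 𝒪[K1]) : K1)‖ = ‖(ϖ : K1)‖ ^ D := by
      have h1 : ((cO * ϖ ^ D : 𝒪[K1]) : K1) = (cO : K1) * (ϖ : K1) ^ D := rfl
      rw [h1, norm_mul, hcn, one_mul, norm_pow]
    have hδ0 : cO * ϖ ^ D ≠ 0 := by
      intro h
      rw [h] at hδn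
      have h2 : ‖((0 : 𝒪[K1]) : K1)‖ = 0 := norm_zero
      rw [h2] at hδn
      exact (pow_pos hϖ0 D).ne hδn
    have hδadm : ‖((cO * ϖ ^ D : 𝒪[K1]) : K1)‖ ^ (p - 1) < ‖((p : ℕ) : K1)‖ := by
      rw [hδn, he, ← pow_mul]
      apply (pow_lt_pow_iff_of_lt_one' hϖ0 hϖ1).mpr
      calc (p - 1) * e0 < (p - 1) * D := Nat.mul_lt_mul_of_pos_left (by omega) (by omega)
        _ = D * (p - 1) := Nat.mul_comm _ _
    have hδϖ : ϖ ∣ cO * ϖ ^ D := by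
      refine ⟨cO * ϖ ^ (D - 1), ?_⟩
      have h1 : D = (D - 1) + 1 := by omega
      nth_rewrite 1 [h1]
      ring
    obtain ⟨ψ1, hψA, hψϖ⟩ := exists_perturb h01 hp0 hc1 ϖ hϖ (cO * ϖ ^ D)
    obtain ⟨v, s, hv1, hv2⟩ := perturb_leading ϖ (cO * ϖ ^ D) ((p : ℕ) : 𝒪[L0]) hadj hπ hδϖ ψ1
      hψA hψϖ i a
    have hx : ψ1 uO = Ideal.Quotient.mk _ v := by
      rw [huO]
      exact hv1
    obtain ⟨t, htL, -, ht⟩ := exists_approx_root h1L hc2 hdeg hPL (cO * ϖ ^ D) hδ0 hδadm _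
      (by rw [map_natCast]) ψ1 uO v hx hθ hθu'
    -- `‖v‖ = 1`
    obtain ⟨w, hw⟩ : ∃ w : 𝒪[K1], w = a + (i : 𝒪[K1]) * a * (cO * ϖ ^ D) + (cO * ϖ ^ D) * ϖ * s :=
      ⟨_, rfl⟩
    have hv3 : v = 1 + ϖ ^ i * w := by
      rw [hv2, hw]
      ring
    have hvn : ‖(v : K1)‖ = 1 := by
      rw [hv3, Subring.coe_add, Subring.coe_one, Subring.coe_mul, Subring.coe_pow]
      apply norm_one_add_eq_one
      rw [norm_mul, norm_pow]
      calc ‖(ϖ : K1)‖ ^ i * ‖(w : K1)‖ ≤ ‖(ϖ : K1)‖ ^ i * 1 :=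
            mul_le_mul_of_nonneg_left (Valued.integer.norm_le_one w) (pow_nonneg hϖ0.le i)
        _ = ‖(ϖ : K1)‖ ^ i := mul_one _
        _ < 1 := pow_lt_one₀ hϖ0.le hϖ1 (by omega)
    -- the root in `L`
    have hpL0 : ((p : ℕ) : L) ≠ 0 := Nat.cast_ne_zero.mpr pp.ne_zero
    have hvL0 : algebraMap K1 L (v : K1) ≠ 0 := by
      intro h
      have h2 : ‖algebraMap K1 L (v : K1)‖ = 1 := by rw [norm_algebraMap', hvn]
      rw [h, norm_zero] at h2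
      exact zero_ne_one h2
    have hδL0 : algebraMap K1 L ((cO * ϖ ^ D : 𝒪[K1]) : K1) ≠ 0 := by
      intro h
      have h2 : ((cO * ϖ ^ D : 𝒪[K1]) : K1) = 0 :=
        (map_eq_zero_iff _ (algebraMap K1 L).injective).mp h
      apply hδ0
      exact Subtype.val_injective h2
    have hδLadm : ‖algebraMap K1 L ((cO * ϖ ^ D : 𝒪[K1]) : K1)‖ ^ (p - 1) < ‖((p : ℕ) : L)‖ := by
      rw [norm_algebraMap', norm_natCast_self p L, ← norm_natCast_self p K1]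
      exact hδadm
    have happ : ‖algebraMap K1 L (v : K1) - (⟨t, htL⟩ : L) ^ p‖ ≤
        ‖((p : ℕ) : L)‖ * ‖algebraMap K1 L ((cO * ϖ ^ D : 𝒪[K1]) : K1)‖ *
          ‖algebraMap K1 L (v : K1)‖ := by
      rw [norm_algebraMap', norm_algebraMap', hvn, mul_one]
      have h3 : ‖((p : ℕ) : L)‖ = ‖((p : ℕ) : PadicAlgCl p)‖ := rfl
      rw [h3]
      exact ht
    obtain ⟨r, hr⟩ := exists_pow_eq_of_approx pp hpL0 hvL0 hδL0 hδLadm happ
    exact ⟨cO, v, s, r, hcO, hv2, hvn, congrArg (Subtype.val : L → PadicAlgCl p) hr⟩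
  choose cO v s r hcO hv hvn hr using key
  -- the family contradicts the count
  have hvK : ∀ c, (v c : K1) = 1 + (ϖ : K1) ^ i * (a : K1)
      + ((i : ℕ) : K1) * (a : K1) * ((cO c : K1) * (ϖ : K1) ^ D) * (ϖ : K1) ^ i
      + ((cO c : K1) * (ϖ : K1) ^ D) * (ϖ : K1) ^ (i + 1) * (s c : K1) := by
    intro c
    have h1 := congrArg (Subtype.val : 𝒪[K1] → K1) (hv c)
    rw [h1]
    push_cast
    rfl
  refine hF h1L hϖ he he0 hcount (fun c => (v c : K1)) r ?_ hr ?_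
  · intro c h
    have h2 := hvn c
    rw [h, norm_zero] at h2
    exact zero_ne_one h2
  · intro c c' hcc
    have hres : residue 𝒪[K1] (cO c) ≠ residue 𝒪[K1] (cO c') := by
      rw [hcO, hcO]
      intro h
      exact hcc (Units.ext h)
    have hs : ‖(cO c : K1) * (s c : K1) - (cO c' : K1) * (s c' : K1)‖ ≤ 1 := by
      have h1 : ‖((cO c * s c - cO c' * s c' : 𝒪[K1]) : K1)‖ ≤ 1 :=
        Valued.integer.norm_le_one (cO c * s c - cO c' * s c')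
      rw [AddSubgroupClass.coe_sub, Subring.coe_mul, Subring.coe_mul] at h1
      exact h1
    have h3 := norm_div_sub_one_family hϖ0 hϖ1 han (norm_natCast_eq_one K1 hpi)
      (norm_sub_eq_one_of_residue_ne hres) hs (hvK c) (hvK c') (hvn c')
    rw [hDi] at h3
    exact h3

end Fermat.Agent.S56.LF.LevelBound
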