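import Mathlib
import Fermat.Agent.S56.Flat.TRExtras
import Fermat.Agent.S56.LF.LevelBound.Statement
import Fermat.Agent.S56.LF.LevelBound.CaseTwo

/-!
# S56 / LF row B2 (LF5), half A: case (iii) of the main lemma on an abstract tower

`L0 ≤ K1 ≤ L` as in `MainTowerStatement`, `e = (p - 1) e0 ≥ 3`.  A uniformiser `u` of `K1`
(`‖u‖ = ‖ϖ‖`) has no `p`-th root in `L`: for every non-zero residue `c` the perturbation
`u ↦ u (1 + c u ^ D)`, `D = p e0 - 1`, produces `v c = u (1 + c u ^ D) ∈ K1 ∩ L^p`, the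
quotients `v c / v c'` have exact level `D`, and `FamilyStatement` excludes such a family.
-/

set_option autoImplicit false

namespace Fermat.Agent.S56.LF.LevelBound

open scoped NNReal NormedField Valued IntermediateField
open IsLocalRing Polynomial
open Fermat.Agent.CFT.Local Fermat.Agent.CFT.Local.NormedLocal Fermat.Agent.CFT.Local.PadicExt
open Fermat.Agent.CFT.Local.UnramPadic Fermat.Agent.S56.Flat

variable {p : ℕ} [Fact p.Prime]

section LevelThree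

variable {K : Type*} [NormedField K] [IsUltrametricDist K]

/-- The level of the quotient of two members of the family of case (iii). -/
theorem norm_div_sub_one_family_three {ϖ c c' v v' : K} {D : ℕ} (hϖ0 : 0 < ‖ϖ‖)
    (hϖ1 : ‖ϖ‖ < 1) (hD : 1 ≤ D) (hcc : ‖c - c'‖ = 1) (hc' : ‖c'‖ ≤ 1)
    (hv : v = ϖ * (1 + c * ϖ ^ D)) (hv' : v' = ϖ * (1 + c' * ϖ ^ D)) :
    ‖v / v' - 1‖ = ‖ϖ‖ ^ D := by
  have hϖne : ϖ ≠ 0 := norm_pos_iff.mp hϖ0
  have hlt : ‖c' * ϖ ^ D‖ < 1 := by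
    rw [norm_mul, norm_pow]
    calc ‖c'‖ * ‖ϖ‖ ^ D ≤ 1 * ‖ϖ‖ ^ D :=
          mul_le_mul_of_nonneg_right hc' (pow_nonneg hϖ0.le D)
      _ = ‖ϖ‖ ^ D := one_mul _
      _ < 1 := pow_lt_one₀ hϖ0.le hϖ1 (by omega)
  have h1n : ‖1 + c' * ϖ ^ D‖ = 1 := by
    have hne : ‖(1 : K)‖ ≠ ‖c' * ϖ ^ D‖ := by
      rw [norm_one]
      exact hlt.ne'
    rw [IsUltrametricDist.norm_add_eq_max_of_norm_ne_norm hne, norm_one, max_eq_left hlt.le]
  have h10 : 1 + c' * ϖ ^ D ≠ 0 := by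
    intro h
    rw [h, norm_zero] at h1n
    exact zero_ne_one h1n
  have h2 : v / v' - 1 = (c - c') * ϖ ^ D / (1 + c' * ϖ ^ D) := by
    rw [hv, hv', mul_div_mul_left _ _ hϖne, div_sub_one h10]
    congr 1
    ring
  rw [h2, norm_div, h1n, div_one, norm_mul, hcc, one_mul, norm_pow]

end LevelThree

/-- **Case (iii) of the main lemma on a tower.** -/
theorem case_three (hF : FamilyStatement p)
    {L0 K1 L : IntermediateField ℚ_[p] (PadicAlgCl p)} [FiniteDimensional ℚ_[p] L0]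
    [FiniteDimensional ℚ_[p] K1] [FiniteDimensional ℚ_[p] L] (h01 : L0 ≤ K1) (h1L : K1 ≤ L)
    (hp0 : Irreducible ((p : ℕ) : 𝒪[L0]))
    (hc1 : Nat.card 𝓀[K1] = Nat.card 𝓀[L0]) (hc2 : Nat.card 𝓀[L] = Nat.card 𝓀[K1])
    (hPL : ∀ (E' : IntermediateField ℚ_[p] (PadicAlgCl p)) [FiniteDimensional ℚ_[p] E'],
      K1 ≤ E' → ∀ π : 𝒪[E'], π ≠ 0 → ‖(π : E')‖ ^ (p - 1) < ‖((p : ℕ) : E')‖ →
      (𝒪[L] →+* 𝒪[E'] ⧸ Ideal.span {((p : ℕ) : 𝒪[E']) * π}) → L ≤ E')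
    (hcount : letI := normedAlgebraOfLE h1L
      p ^ Module.finrank K1 L < Nat.card 𝓀[K1] - 1)
    {ϖ : 𝒪[K1]} (hϖ : Irreducible ϖ) {e0 : ℕ}
    (he : ‖((p : ℕ) : K1)‖ = ‖(ϖ : K1)‖ ^ ((p - 1) * e0))
    {u θ : PadicAlgCl p} (hu : u ∈ K1) (hθ : θ ∈ L) (hθu : θ ^ p = u)
    (h3 : 3 ≤ (p - 1) * e0) :
    ‖u‖ ≠ ‖(ϖ : K1)‖ := by
  intro hlev
  have pp : p.Prime := Fact.out
  have hp2 : 2 ≤ p := pp.two_le
  have hϖ0 : 0 < ‖(ϖ : K1)‖ := Valued.integer.norm_irreducible_pos hϖ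
  have hϖ1 : ‖(ϖ : K1)‖ < 1 := Valued.integer.norm_irreducible_lt_one hϖ
  have he0 : 1 ≤ e0 := by
    rcases Nat.eq_zero_or_pos e0 with h | h
    · rw [h] at h3; omega
    · exact h
  have hpe : p * e0 = (p - 1) * e0 + e0 := by
    have : p = (p - 1) + 1 := by omega
    nth_rewrite 1 [this]
    ring
  -- the exponent of the perturbation
  obtain ⟨D, hD⟩ : ∃ D, D = p * e0 - 1 := ⟨_, rfl⟩
  have hD1 : e0 + 2 ≤ D := by omega
  -- `u` is a uniformiser of `K1`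
  have hun : ‖(⟨u, hu⟩ : K1)‖ = ‖(ϖ : K1)‖ := hlev
  let uO : 𝒪[K1] := ⟨⟨u, hu⟩, Valued.integer.mem_iff.mpr (hun.le.trans hϖ1.le)⟩
  have huOn : ‖(uO : K1)‖ = ‖(ϖ : K1)‖ := hun
  have huO0 : 0 < ‖(uO : K1)‖ := by rw [huOn]; exact hϖ0
  have huO1 : ‖(uO : K1)‖ < 1 := by rw [huOn]; exact hϖ1
  have huO : Irreducible uO := by
    have hmem : uO ∈ Ideal.span {ϖ} := by
      rw [mem_span_singleton_iff_norm_le]
      exact huOn.le
    rw [Ideal.mem_span_singleton'] at hmem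
    obtain ⟨a, ha⟩ := hmem
    have han : ‖(a : K1)‖ = 1 := by
      have h1 : (uO : K1) = (a : K1) * (ϖ : K1) := by
        rw [← ha, Subring.coe_mul]
      have h2 : ‖(a : K1)‖ * ‖(ϖ : K1)‖ = ‖(ϖ : K1)‖ := by
        rw [← norm_mul, ← h1, huOn]
      exact (mul_eq_right₀ hϖ0.ne').mp h2
    have haU : IsUnit a := Valued.integer.isUnit_iff_norm_eq_one.mpr han
    have hassoc : Associated ϖ uO := ⟨haU.unit, by rw [IsUnit.unit_spec, mul_comm, ha]⟩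
    exact hassoc.irreducible hϖ
  -- the perturbation data
  let _ := normedAlgebraOfLE h01
  let _ := normedAlgebraOfLE h1L
  have hdeg : ∀ Θ : 𝒪[L], Irreducible Θ → (minpoly 𝒪[K1] Θ).natDegree ≤ Module.finrank K1 L :=
    fun Θ hΘ => (TRExtras.natDegree_minpoly_of_le h1L hc2 hΘ).le
  have hθu' : θ ^ p = ((uO : K1) : PadicAlgCl p) := hθu
  -- for every non-zero residue: a `p`-th power of `L` in `K1`
  have key : ∀ c : (𝓀[K1])ˣ, ∃ (cO : 𝒪[K1]) (r : L), residue 𝒪[K1] cO = (c : 𝓀[K1]) ∧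
      ((r : L) : PadicAlgCl p) ^ p
        = (((uO * (1 + cO * uO ^ D) : 𝒪[K1]) : K1) : PadicAlgCl p) := by
    intro c
    obtain ⟨cO, hcO⟩ := residue_surjective (c : 𝓀[K1])
    have hcn : ‖(cO : K1)‖ = 1 := by
      apply norm_eq_one_of_residue_ne_zero
      rw [hcO]
      exact c.ne_zero
    have hδn : ‖((cO * uO ^ D : 𝒪[K1]) : K1)‖ = ‖(ϖ : K1)‖ ^ D := by
      have h1 : ((cO * uO ^ D : 𝒪[K1]) : K1) = (cO : K1) * (uO : K1) ^ D := rfl
      rw [h1, norm_mul, hcn, one_mul, norm_pow, huOn]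
    have hδ2n : ‖((cO * uO ^ (D - 1) : 𝒪[K1]) : K1)‖ = ‖(ϖ : K1)‖ ^ (D - 1) := by
      have h1 : ((cO * uO ^ (D - 1) : 𝒪[K1]) : K1) = (cO : K1) * (uO : K1) ^ (D - 1) := rfl
      rw [h1, norm_mul, hcn, one_mul, norm_pow, huOn]
    have hδ0 : cO * uO ^ D ≠ 0 := by
      intro h
      rw [h] at hδn
      have h2 : ‖((0 : 𝒪[K1]) : K1)‖ = 0 := norm_zero
      rw [h2] at hδn
      exact (pow_pos hϖ0 D).ne hδn
    have hδ20 : cO * uO ^ (D - 1) ≠ 0 := by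
      intro h
      rw [h] at hδ2n
      have h2 : ‖((0 : 𝒪[K1]) : K1)‖ = 0 := norm_zero
      rw [h2] at hδ2n
      exact (pow_pos hϖ0 (D - 1)).ne hδ2n
    have hδadm : ‖((cO * uO ^ D : 𝒪[K1]) : K1)‖ ^ (p - 1) < ‖((p : ℕ) : K1)‖ := by
      rw [hδn, he, ← pow_mul]
      apply (pow_lt_pow_iff_of_lt_one' hϖ0 hϖ1).mpr
      calc (p - 1) * e0 < (p - 1) * D := Nat.mul_lt_mul_of_pos_left (by omega) (by omega)
        _ = D * (p - 1) := Nat.mul_comm _ _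
    have hδ2adm : ‖((cO * uO ^ (D - 1) : 𝒪[K1]) : K1)‖ ^ (p - 1) < ‖((p : ℕ) : K1)‖ := by
      rw [hδ2n, he, ← pow_mul]
      apply (pow_lt_pow_iff_of_lt_one' hϖ0 hϖ1).mpr
      calc (p - 1) * e0 < (p - 1) * (D - 1) :=
            Nat.mul_lt_mul_of_pos_left (by omega) (by omega)
        _ = (D - 1) * (p - 1) := Nat.mul_comm _ _
    obtain ⟨ψ1, -, hψϖ⟩ := exists_perturb h01 hp0 hc1 uO huO (cO * uO ^ D)
    obtain ⟨t, htL, -, ht⟩ := exists_approx_root h1L hc2 hdeg hPL (cO * uO ^ D) hδ0 hδadm _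
      (by rw [map_natCast]) ψ1 uO (uO * (1 + cO * uO ^ D)) hψϖ hθ hθu'
    -- `‖v‖ = ‖ϖ‖`
    have hvn : ‖((uO * (1 + cO * uO ^ D) : 𝒪[K1]) : K1)‖ = ‖(ϖ : K1)‖ := by
      have h1 : ((uO * (1 + cO * uO ^ D) : 𝒪[K1]) : K1)
          = (uO : K1) * (1 + ((cO * uO ^ D : 𝒪[K1]) : K1)) := rfl
      rw [h1, norm_mul, huOn]
      have h2 : ‖(1 : K1) + ((cO * uO ^ D : 𝒪[K1]) : K1)‖ = 1 := by
        apply norm_one_add_eq_one
        rw [hδn]
        exact pow_lt_one₀ hϖ0.le hϖ1 (by omega)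
      rw [h2, mul_one]
    -- the root in `L`
    have hpL0 : ((p : ℕ) : L) ≠ 0 := Nat.cast_ne_zero.mpr pp.ne_zero
    have hvL0 : algebraMap K1 L ((uO * (1 + cO * uO ^ D) : 𝒪[K1]) : K1) ≠ 0 := by
      intro h
      have h2 : ‖algebraMap K1 L ((uO * (1 + cO * uO ^ D) : 𝒪[K1]) : K1)‖ = ‖(ϖ : K1)‖ := by
        rw [norm_algebraMap', hvn]
      rw [h, norm_zero] at h2
      exact hϖ0.ne h2
    have hδL0 : algebraMap K1 L ((cO * uO ^ (D - 1) : 𝒪[K1]) : K1) ≠ 0 := by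
      intro h
      have h2 : ((cO * uO ^ (D - 1) : 𝒪[K1]) : K1) = 0 :=
        (map_eq_zero_iff _ (algebraMap K1 L).injective).mp h
      apply hδ20
      exact Subtype.val_injective h2
    have hδLadm : ‖algebraMap K1 L ((cO * uO ^ (D - 1) : 𝒪[K1]) : K1)‖ ^ (p - 1)
        < ‖((p : ℕ) : L)‖ := by
      rw [norm_algebraMap', norm_natCast_self p L, ← norm_natCast_self p K1]
      exact hδ2adm
    have happ : ‖algebraMap K1 L ((uO * (1 + cO * uO ^ D) : 𝒪[K1]) : K1) - (⟨t, htL⟩ : L) ^ p‖ ≤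
        ‖((p : ℕ) : L)‖ * ‖algebraMap K1 L ((cO * uO ^ (D - 1) : 𝒪[K1]) : K1)‖ *
          ‖algebraMap K1 L ((uO * (1 + cO * uO ^ D) : 𝒪[K1]) : K1)‖ := by
      rw [norm_algebraMap', norm_algebraMap', hvn, hδ2n]
      have h3 : ‖((p : ℕ) : L)‖ = ‖((p : ℕ) : PadicAlgCl p)‖ := rfl
      have h4 : ‖((p : ℕ) : L)‖ * ‖(ϖ : K1)‖ ^ (D - 1) * ‖(ϖ : K1)‖
          = ‖((p : ℕ) : PadicAlgCl p)‖ * ‖((cO * uO ^ D : 𝒪[K1]) : K1)‖ := by
        rw [h3, hδn, mul_assoc, ← pow_succ]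
        congr 2
        omega
      rw [h4]
      exact ht
    obtain ⟨r, hr⟩ := exists_pow_eq_of_approx pp hpL0 hvL0 hδL0 hδLadm happ
    exact ⟨cO, r, hcO, congrArg (Subtype.val : L → PadicAlgCl p) hr⟩
  choose cO r hcO hr using key
  -- the family contradicts the count
  have hvK : ∀ c, ((uO * (1 + cO c * uO ^ D) : 𝒪[K1]) : K1)
      = (uO : K1) * (1 + (cO c : K1) * (uO : K1) ^ D) := fun c => rfl
  refine hF h1L hϖ he he0 hcount (fun c => ((uO * (1 + cO c * uO ^ D) : 𝒪[K1]) : K1)) r ?_ hr ?_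
  · intro c h
    have h1 : ((uO * (1 + cO c * uO ^ D) : 𝒪[K1]) : K1) = 0 := h
    have hres : residue 𝒪[K1] (cO c) ≠ 0 := by
      rw [hcO]
      exact c.ne_zero
    have hcn : ‖(cO c : K1)‖ = 1 := norm_eq_one_of_residue_ne_zero hres
    have h2 : ‖(1 : K1) + (cO c : K1) * (uO : K1) ^ D‖ = 1 := by
      apply norm_one_add_eq_one
      rw [norm_mul, hcn, one_mul, norm_pow]
      exact pow_lt_one₀ huO0.le huO1 (by omega)
    rw [hvK c] at h1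
    have h4 : ‖(uO : K1) * (1 + (cO c : K1) * (uO : K1) ^ D)‖ = ‖(uO : K1)‖ := by
      rw [norm_mul, h2, mul_one]
    rw [h1, norm_zero] at h4
    exact huO0.ne h4
  · intro c c' hcc
    have hres : residue 𝒪[K1] (cO c) ≠ residue 𝒪[K1] (cO c') := by
      rw [hcO, hcO]
      intro h
      exact hcc (Units.ext h)
    have h5 := norm_div_sub_one_family_three (D := D) huO0 huO1 (by omega)
      (norm_sub_eq_one_of_residue_ne hres) (Valued.integer.norm_le_one (cO c')) (hvK c) (hvK c')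
    rw [huOn] at h5
    rw [← hD]
    exact h5

end Fermat.Agent.S56.LF.LevelBound
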