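import Mathlib
import Fermat.Agent.S56.LF.LevelBound.Statement
import Fermat.Agent.S56.Flat.LF5.KummerCount

/-!
# S56 / LF row B2 (LF5), half A: the counting step

`family : FamilyStatement p`.  Let `K1 ≤ L` be finite extensions of `ℚ_p` inside `PadicAlgCl p`,
`ϖ` a uniformiser of `K1` with `‖p‖ = ‖ϖ‖ ^ ((p - 1) e0)`, `e0 ≥ 1`.  A family `v c ∈ K1ˣ`
indexed by the non-zero residues of `K1`, all of whose members are `p`-th powers in `L` and whose
pairwise quotients have exact level `p e0 - 1`, cannot exist once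
`p ^ [L : K1] < |𝓀[K1]| - 1`:

* the pairwise quotients are not `p`-th powers in `K1` (`not_pow_of_norm_sub_one`, the level
  `p e0 - 1` is `< p e0` and prime to `p`);
* so the `p`-th roots `s c ∈ L` are pairwise distinct modulo `K1ˣ`, and the Kummer count
  (`Flat.LF5.KummerCount.card_le_pow_finrank`) bounds their number by `p ^ [L : K1]`.
-/

set_option autoImplicit false

namespace Fermat.Agent.S56.LF.LevelBound

open scoped NNReal NormedField Valued IntermediateField
open IsLocalRing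
open Fermat.Agent.CFT.Local.NormedLocal Fermat.Agent.CFT.Local.PadicExt
open Fermat.Agent.CFT.Local.UnramPadic

/-- In a local field, a non-zero element of norm `< 1` has norm `‖ϖ‖ ^ j` with `j ≥ 1`. -/
theorem family_exists_norm_eq_pow {K : Type*} [NontriviallyNormedField K]
    [IsUltrametricDist K] [ProperSpace K] {ϖ : 𝒪[K]} (hϖ : Irreducible ϖ) {y : K} (hy : y ≠ 0)
    (hy1 : ‖y‖ < 1) : ∃ j : ℕ, 1 ≤ j ∧ ‖y‖ = ‖(ϖ : K)‖ ^ j := by
  have hϖ0 : 0 < ‖(ϖ : K)‖ := Valued.integer.norm_irreducible_pos hϖ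
  have hϖ1 : ‖(ϖ : K)‖ < 1 := Valued.integer.norm_irreducible_lt_one hϖ
  obtain ⟨n, hn⟩ := exists_norm_eq_zpow hϖ hy
  have hnpos : 0 < n := by
    by_contra hcon
    rw [not_lt] at hcon
    have h1 : (1 : ℝ) ≤ ‖(ϖ : K)‖ ^ n := one_le_zpow_of_nonpos₀ hϖ0 hϖ1.le hcon
    rw [← hn] at h1
    exact absurd hy1 (not_lt.mpr h1)
  refine ⟨n.toNat, ?_, ?_⟩
  · omega
  · rw [hn, ← zpow_natCast, Int.toNat_of_nonneg hnpos.le]

/-- `p e0 - 1` is at least `1`, less than `p e0` and prime to `p`. -/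
theorem family_level_arith {p : ℕ} (hp : p.Prime) {e0 : ℕ} (he0 : 1 ≤ e0) :
    1 ≤ p * e0 - 1 ∧ p * e0 - 1 < p * e0 ∧ ¬ p ∣ p * e0 - 1 := by
  have h2 : 2 ≤ p := hp.two_le
  have h3 : 2 ≤ p * e0 := by nlinarith
  refine ⟨by omega, by omega, ?_⟩
  intro hdvd
  have h4 : p ∣ p * e0 := Dvd.intro _ rfl
  have h5 : p ∣ p * e0 - (p * e0 - 1) := Nat.dvd_sub h4 hdvd
  have h6 : p * e0 - (p * e0 - 1) = 1 := by omega
  rw [h6] at h5
  exact hp.one_lt.ne' (Nat.dvd_one.mp h5)

/-- **The counting step of LF5.** -/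
theorem family {p : ℕ} [hpF : Fact p.Prime] : FamilyStatement p := by
  intro K1 L _ _ h1L ϖ hϖ e0 he he0 hcount v s hv0 hsp hlev
  letI := normedAlgebraOfLE h1L
  have hp : p.Prime := hpF.out
  haveI : FiniteDimensional K1 L := finiteDimensional_of_le h1L
  haveI : IsScalarTower K1 L (PadicAlgCl p) := IsScalarTower.of_algebraMap_eq (fun x => rfl)
  have hϖ0 : 0 < ‖(ϖ : K1)‖ := Valued.integer.norm_irreducible_pos hϖ
  have hϖ1 : ‖(ϖ : K1)‖ < 1 := Valued.integer.norm_irreducible_lt_one hϖ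
  obtain ⟨hl1, hl, hpl⟩ := family_level_arith hp he0
  -- the family `s` satisfies the hypotheses of the Kummer count
  have hs0 : ∀ c, s c ≠ 0 := by
    intro c hc
    have h1 := hsp c
    rw [hc] at h1
    have h2 : ((v c : K1) : PadicAlgCl p) = 0 := by
      rw [← h1]
      simp [hp.ne_zero]
    exact hv0 c (by exact_mod_cast h2)
  have hsp' : ∀ c, s c ^ p ∈ (algebraMap K1 L).range := by
    intro c
    refine ⟨v c, ?_⟩
    apply Subtype.ext
    rw [algebraMap_coe_of_le h1L]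
    exact (hsp c).symm
  have hne : ∀ c c', c ≠ c' → s c / s c' ∉ (algebraMap K1 L).range := by
    rintro c c' hcc ⟨w, hw⟩
    have h1 : ((w : K1) : PadicAlgCl p) = (s c : PadicAlgCl p) / (s c' : PadicAlgCl p) := by
      have h2 := congrArg (Subtype.val : L → PadicAlgCl p) hw
      rw [algebraMap_coe_of_le h1L] at h2
      rw [h2]
      simp
    have h3 : w ^ p = v c / v c' := by
      have h4 : ((w ^ p : K1) : PadicAlgCl p) = ((v c / v c' : K1) : PadicAlgCl p) := by
        push_cast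
        rw [h1, div_pow, hsp c, hsp c']
      exact_mod_cast h4
    exact not_pow_of_norm_sub_one (K := K1) hp hϖ0 hϖ1
      (fun y hy hy1 => family_exists_norm_eq_pow hϖ hy hy1) he hl1 hl hpl
      (hlev c c' hcc) w h3
  have hcard := Fermat.Agent.S56.Flat.LF5.KummerCount.card_le_pow_finrank (F := K1) (E := L)
    (Ω := PadicAlgCl p) hp.pos s hs0 hsp' hne
  have hunits : Nat.card (𝓀[K1])ˣ = Nat.card 𝓀[K1] - 1 := Nat.card_units _
  rw [hunits] at hcard
  exact absurd hcount (not_lt.mpr hcard)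

end Fermat.Agent.S56.LF.LevelBound
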