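import Mathlib
import Fermat.Agent.CFT.Local.UnramPadicFrob
import Fermat.Agent.S56.LF.LevelBound.Statement

/-!
# S56 / LF row B2 (LF5), half A: `MainTowerStatement p → MainStatement p` (helper118)

Given `L'` with property (P), a finite `K2` with uniformiser `ϖ` (norm form), put
`M := L' ⊔ K2`, `d := [L' : ℚ_p]`, `fK := f(K2/ℚ_p)`, `fM := f(M/ℚ_p)` and

* `L0 := unram ⊥ (fK * fM * (d + 1))`,
* `K1 := unram K2 (fM * (d + 1)) = K2 ⊔ L0`,
* `L  := unram M (fK * (d + 1)) = M ⊔ L0`.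

Then `L0 ≤ K1 ≤ L`, the three residue fields have `p ^ (fK * fM * (d + 1))` elements, `p` is a
uniformiser of `L0`, `ϖ` stays a uniformiser of `K1`, `L = L' ⊔ K1` has property (P) relative to
`K1`, and `p ^ [L : K1] ≤ p ^ d < p ^ (d + 1) - 1 ≤ card - 1`: the abstract tower statement
applies.

* `Tower.irreducible_of_norm_max` : an integer of a local field whose norm is `< 1` and dominates
  every norm `< 1` is a uniformiser;
* `Tower.irreducible_natCast_bot`, `Tower.irreducible_natCast_unram_bot` : `p` is a uniformiser of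
  `ℚ_p` (as `⊥`) and of `unram ⊥ N`;
* `Tower.card_residueField_unram`, `Tower.exists_resDeg`, `Tower.exists_irreducible_unram`;
* `Tower.main_of_tower_aux` : the reduction on an arbitrary tower `L0 ≤ K1 ≤ L ≤ L' ⊔ K1`;
* `main_of_tower : MainTowerStatement p → MainStatement p`.
-/

set_option autoImplicit false

namespace Fermat.Agent.S56.LF.LevelBound

open scoped NNReal NormedField Valued IntermediateField
open IsLocalRing
open Fermat.Agent.CFT.Local Fermat.Agent.CFT.Local.NormedLocal Fermat.Agent.CFT.Local.PadicExt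
open Fermat.Agent.CFT.Local.UnramPadic

namespace Tower

section Generic

variable {K : Type*} [NontriviallyNormedField K] [IsUltrametricDist K] [ProperSpace K]

/-- An integer of norm `< 1` whose norm dominates every norm `< 1` is a uniformiser. -/
theorem irreducible_of_norm_max {x : 𝒪[K]} (hx1 : ‖(x : K)‖ < 1)
    (hmax : ∀ y : K, ‖y‖ < 1 → ‖y‖ ≤ ‖(x : K)‖) : Irreducible x := by
  obtain ⟨ϖ, hϖ⟩ := IsDiscreteValuationRing.exists_irreducible 𝒪[K]
  have hϖpos : 0 < ‖(ϖ : K)‖ := Valued.integer.norm_irreducible_pos hϖ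
  have hϖlt : ‖(ϖ : K)‖ < 1 := Valued.integer.norm_irreducible_lt_one hϖ
  have hle : ‖(ϖ : K)‖ ≤ ‖(x : K)‖ := hmax _ hϖlt
  have hx0 : x ≠ 0 := by
    rintro rfl
    have h0 : ‖((0 : 𝒪[K]) : K)‖ = 0 := norm_zero
    rw [h0] at hle
    exact absurd hle (not_le.mpr hϖpos)
  obtain ⟨n, u, hu⟩ := IsDiscreteValuationRing.eq_unit_mul_pow_irreducible hx0 hϖ
  have hnorm : ‖(x : K)‖ = ‖(ϖ : K)‖ ^ n := by
    have h2 : (x : K) = ((u : 𝒪[K]) : K) * (ϖ : K) ^ n := congrArg Subtype.val hu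
    rw [h2, norm_mul, Valued.integer.norm_coe_unit, one_mul, norm_pow]
  have hn : n = 1 := by
    rcases Nat.lt_trichotomy n 1 with h | h | h
    · have hn0 : n = 0 := by omega
      rw [hn0, pow_zero] at hnorm
      exact absurd hnorm hx1.ne
    · exact h
    · exfalso
      have h3 : ‖(ϖ : K)‖ ^ n ≤ ‖(ϖ : K)‖ ^ 2 := pow_le_pow_of_le_one hϖpos.le hϖlt.le h
      have h4 : ‖(ϖ : K)‖ ^ 2 < ‖(ϖ : K)‖ := by nlinarith
      rw [hnorm] at hle
      exact absurd (hle.trans h3) (not_le.mpr h4)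
  rw [hn, pow_one] at hu
  rw [hu]
  exact (irreducible_units_mul u).mpr hϖ

end Generic

variable {p : ℕ} [Fact p.Prime]

/-- `p` is a uniformiser of `ℚ_p`, seen as the bottom intermediate field of `ℚ̄_p`. -/
theorem irreducible_natCast_bot :
    Irreducible ((p : ℕ) : 𝒪[(⊥ : IntermediateField ℚ_[p] (PadicAlgCl p))]) := by
  have hp1 : (1 : ℝ) < p := by exact_mod_cast (Fact.out : p.Prime).one_lt
  have hnp : ‖(((p : ℕ) : 𝒪[(⊥ : IntermediateField ℚ_[p] (PadicAlgCl p))]) :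
      (⊥ : IntermediateField ℚ_[p] (PadicAlgCl p)))‖ = (p : ℝ)⁻¹ :=
    norm_natCast_self p (⊥ : IntermediateField ℚ_[p] (PadicAlgCl p))
  apply irreducible_of_norm_max
  · rw [hnp]
    exact inv_lt_one_of_one_lt₀ hp1
  · intro y hy
    obtain ⟨z, hz⟩ := IntermediateField.mem_bot.mp y.2
    have hyz : ‖y‖ = ‖z‖ := by
      have h1 : y = algebraMap ℚ_[p] (⊥ : IntermediateField ℚ_[p] (PadicAlgCl p)) z :=
        Subtype.ext hz.symm
      rw [h1, norm_algebraMap']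
    rw [hnp, hyz]
    rw [hyz] at hy
    have h2 := (Padic.norm_le_pow_iff_norm_lt_pow_add_one z (-1)).mpr (by simpa using hy)
    simpa [zpow_neg_one] using h2

/-- The residue field of `unram E n` has `Q_E ^ n` elements. -/
theorem card_residueField_unram (E : IntermediateField ℚ_[p] (PadicAlgCl p))
    [FiniteDimensional ℚ_[p] E] {n : ℕ} (hn : 0 < n) :
    Nat.card 𝓀[unram E n] = Nat.card 𝓀[E] ^ n := by
  have h1 := card_residueField_of_le (le_unram E n)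
  rw [inertiaDeg_unram E hn] at h1
  exact h1

/-- `p` is a uniformiser of the unramified extension `unram ⊥ N` of `ℚ_p`. -/
theorem irreducible_natCast_unram_bot {N : ℕ} (hN : 0 < N) :
    Irreducible ((p : ℕ) : 𝒪[unram (⊥ : IntermediateField ℚ_[p] (PadicAlgCl p)) N]) := by
  let _ := normedAlgebraOfLE (le_unram (⊥ : IntermediateField ℚ_[p] (PadicAlgCl p)) N)
  have h := irreducible_algebraMap_unram (⊥ : IntermediateField ℚ_[p] (PadicAlgCl p)) hN
    (irreducible_natCast_bot (p := p))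
  rwa [map_natCast] at h

/-- The residue degree `f` of `E` over `ℚ_p`: `card 𝓀[E] = p ^ f` and `E · unram ⊥ (f m)` is the
unramified extension of degree `m` of `E`. -/
theorem exists_resDeg (E : IntermediateField ℚ_[p] (PadicAlgCl p)) [FiniteDimensional ℚ_[p] E] :
    ∃ f : ℕ, 0 < f ∧ Nat.card 𝓀[E] = p ^ f ∧
      ∀ m : ℕ, 0 < m →
        E ⊔ unram (⊥ : IntermediateField ℚ_[p] (PadicAlgCl p)) (f * m) = unram E m := by
  have hb : (⊥ : IntermediateField ℚ_[p] (PadicAlgCl p)) ≤ E := bot_le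
  refine ⟨_, inertiaDeg_pos_of_le hb, ?_, fun m hm => sup_unram_eq_unram hb hm⟩
  rw [card_residueField_of_le hb, card_residueField_bot]

/-- A uniformiser of `E` stays a uniformiser of `unram E n` (same element of `ℚ̄_p`). -/
theorem exists_irreducible_unram (E : IntermediateField ℚ_[p] (PadicAlgCl p))
    [FiniteDimensional ℚ_[p] E] {n : ℕ} (hn : 0 < n) {ϖ : 𝒪[E]} (hϖ : Irreducible ϖ) :
    ∃ ϖ' : 𝒪[unram E n], Irreducible ϖ' ∧
      ((ϖ' : unram E n) : PadicAlgCl p) = ((ϖ : E) : PadicAlgCl p) :=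
  ⟨_, irreducible_algebraMap_unram E hn hϖ, rfl⟩

/-- **The reduction on an arbitrary tower** `L0 ≤ K1 ≤ L ≤ L' ⊔ K1` with `L' ≤ L`. -/
theorem main_of_tower_aux (hT : MainTowerStatement p)
    {L' L0 K1 L : IntermediateField ℚ_[p] (PadicAlgCl p)}
    [FiniteDimensional ℚ_[p] L'] [FiniteDimensional ℚ_[p] L0]
    [FiniteDimensional ℚ_[p] K1] [FiniteDimensional ℚ_[p] L]
    (hP : PropP L') (h01 : L0 ≤ K1) (h1L : K1 ≤ L) (hL'L : L' ≤ L) (hLle : L ≤ L' ⊔ K1)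
    (hp0 : Irreducible ((p : ℕ) : 𝒪[L0]))
    (hc1 : Nat.card 𝓀[K1] = Nat.card 𝓀[L0]) (hc2 : Nat.card 𝓀[L] = Nat.card 𝓀[K1])
    (hcount : p ^ Module.finrank ℚ_[p] L' < Nat.card 𝓀[K1] - 1)
    {ϖ : 𝒪[K1]} (hϖ : Irreducible ϖ) {e0 : ℕ}
    (he0 : ‖((p : ℕ) : K1)‖ = ‖(ϖ : K1)‖ ^ ((p - 1) * e0))
    {u θ : PadicAlgCl p} (hu : u ∈ K1) (hθ : θ ∈ L) (hθu : θ ^ p = u) :
    (∀ i : ℕ, 1 ≤ i → i + 2 ≤ (p - 1) * e0 → ¬ p ∣ i → ‖u - 1‖ ≠ ‖(ϖ : K1)‖ ^ i) ∧
      (3 ≤ (p - 1) * e0 → ‖u‖ ≠ ‖(ϖ : K1)‖) := by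
  refine hT h01 h1L hp0 hc1 hc2 ?_ ?_ hϖ he0 hu hθ hθu
  · intro E' _ hK1E π hπ0 hπ ψ
    have hL'E : L' ≤ E' :=
      hP E' π hπ0 hπ (ψ.comp (letI := normedAlgebraOfLE hL'L; algebraMap 𝒪[L'] 𝒪[L]))
    exact hLle.trans (sup_le hL'E hK1E)
  · let _ := normedAlgebraOfLE h1L
    have h1 := finrank_mul_finrank_of_le h1L
    have h2 : Module.finrank ℚ_[p] L ≤ Module.finrank ℚ_[p] ↥(L' ⊔ K1) :=
      IntermediateField.finrank_le_of_le_right hLle
    have h3 := IntermediateField.finrank_sup_le L' K1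
    have h4 : 0 < Module.finrank ℚ_[p] K1 := Module.finrank_pos
    have h6 : Module.finrank ℚ_[p] K1 * Module.finrank K1 L ≤
        Module.finrank ℚ_[p] K1 * Module.finrank ℚ_[p] L' := by
      rw [h1]
      exact h2.trans (h3.trans (le_of_eq (mul_comm _ _)))
    have h5 : Module.finrank K1 L ≤ Module.finrank ℚ_[p] L' := Nat.le_of_mul_le_mul_left h6 h4
    exact lt_of_le_of_lt (Nat.pow_le_pow_right (Fact.out : p.Prime).pos h5) hcount

end Tower

open Tower in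
/-- **`MainTowerStatement p → MainStatement p`**: the tower `L0 ≤ K1 ≤ L` of the main lemma is
built from `K2` and `L'` by unramified extensions. -/
theorem main_of_tower {p : ℕ} [Fact p.Prime] : MainTowerStatement p → MainStatement p := by
  intro hT L' _ hP K2 _ ϖ hϖK hϖ1 hϖmax e0 he0 u θ huK hθ hθu
  -- `ϖ` as a uniformiser of `K2`
  have hϖint : (⟨ϖ, hϖK⟩ : K2) ∈ 𝒪[K2] := Valued.integer.mem_iff.mpr hϖ1.le
  have hϖ2 : Irreducible (⟨⟨ϖ, hϖK⟩, hϖint⟩ : 𝒪[K2]) :=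
    irreducible_of_norm_max (K := K2) hϖ1 (fun y hy => hϖmax y.1 y.2 hy)
  -- residue degrees
  obtain ⟨fK, hfK0, hfKc, hfKs⟩ := exists_resDeg K2
  obtain ⟨fM, hfM0, hfMc, hfMs⟩ := exists_resDeg (L' ⊔ K2)
  obtain ⟨d, hd⟩ : ∃ d : ℕ, d = Module.finrank ℚ_[p] L' := ⟨_, rfl⟩
  have hd0 : 0 < d := hd ▸ Module.finrank_pos
  have hm1 : 0 < fM * (d + 1) := Nat.mul_pos hfM0 (Nat.succ_pos d)
  have hm2 : 0 < fK * (d + 1) := Nat.mul_pos hfK0 (Nat.succ_pos d)
  have hN0 : 0 < fK * fM * (d + 1) := Nat.mul_pos (Nat.mul_pos hfK0 hfM0) (Nat.succ_pos d)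
  -- the tower
  have hK1 : K2 ⊔ unram (⊥ : IntermediateField ℚ_[p] (PadicAlgCl p)) (fK * fM * (d + 1)) =
      unram K2 (fM * (d + 1)) := by
    rw [mul_assoc]
    exact hfKs _ hm1
  have hL : (L' ⊔ K2) ⊔ unram (⊥ : IntermediateField ℚ_[p] (PadicAlgCl p)) (fK * fM * (d + 1)) =
      unram (L' ⊔ K2) (fK * (d + 1)) := by
    rw [show fK * fM * (d + 1) = fM * (fK * (d + 1)) by ring]
    exact hfMs _ hm2
  have h01 : unram (⊥ : IntermediateField ℚ_[p] (PadicAlgCl p)) (fK * fM * (d + 1)) ≤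
      unram K2 (fM * (d + 1)) := by
    rw [← hK1]
    exact le_sup_right
  have h1L : unram K2 (fM * (d + 1)) ≤ unram (L' ⊔ K2) (fK * (d + 1)) := by
    rw [← hK1, ← hL]
    exact sup_le_sup_right le_sup_right _
  have hL'L : L' ≤ unram (L' ⊔ K2) (fK * (d + 1)) := le_sup_left.trans (le_unram _ _)
  have hLle : unram (L' ⊔ K2) (fK * (d + 1)) ≤ L' ⊔ unram K2 (fM * (d + 1)) := by
    rw [← hK1, ← hL, sup_assoc]
  -- the residue fields
  have hcL0 : Nat.card 𝓀[unram (⊥ : IntermediateField ℚ_[p] (PadicAlgCl p))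
      (fK * fM * (d + 1))] = p ^ (fK * fM * (d + 1)) := by
    rw [card_residueField_unram _ hN0, card_residueField_bot]
  have hcK1 : Nat.card 𝓀[unram K2 (fM * (d + 1))] = p ^ (fK * fM * (d + 1)) := by
    rw [card_residueField_unram _ hm1, hfKc, ← pow_mul, mul_assoc]
  have hcL : Nat.card 𝓀[unram (L' ⊔ K2) (fK * (d + 1))] = p ^ (fK * fM * (d + 1)) := by
    rw [card_residueField_unram _ hm2, hfMc, ← pow_mul,
      show fM * (fK * (d + 1)) = fK * fM * (d + 1) by ring]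
  -- the uniformiser of `K1`
  obtain ⟨ϖ1, hϖ1irr, hϖ1coe⟩ := exists_irreducible_unram K2 hm1 hϖ2
  have hnormϖ1 : ‖(ϖ1 : unram K2 (fM * (d + 1)))‖ = ‖ϖ‖ := by
    change ‖((ϖ1 : unram K2 (fM * (d + 1))) : PadicAlgCl p)‖ = ‖ϖ‖
    rw [hϖ1coe]
  -- the count
  have hcount : p ^ Module.finrank ℚ_[p] L' < Nat.card 𝓀[unram K2 (fM * (d + 1))] - 1 := by
    rw [hcK1, ← hd]
    have h2 : 2 ≤ p := (Fact.out : p.Prime).two_le
    have h3 : 2 ≤ p ^ d := h2.trans (Nat.le_self_pow hd0.ne' p)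
    have h4 : p ^ (d + 1) = p ^ d * p := pow_succ _ _
    have h5 : p ^ d * 2 ≤ p ^ d * p := Nat.mul_le_mul_left _ h2
    have h6 : d + 1 ≤ fK * fM * (d + 1) := Nat.le_mul_of_pos_left _ (Nat.mul_pos hfK0 hfM0)
    have h7 : p ^ (d + 1) ≤ p ^ (fK * fM * (d + 1)) := Nat.pow_le_pow_right (by omega) h6
    omega
  have he0' : ‖((p : ℕ) : unram K2 (fM * (d + 1)))‖ =
      ‖(ϖ1 : unram K2 (fM * (d + 1)))‖ ^ ((p - 1) * e0) := by
    rw [hnormϖ1]
    exact he0
  have key := main_of_tower_aux hT hP h01 h1L hL'L hLle (irreducible_natCast_unram_bot hN0)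
    (hcK1.trans hcL0.symm) (hcL.trans hcK1.symm) hcount hϖ1irr he0'
    (le_unram K2 _ huK) (le_unram (L' ⊔ K2) _ hθ) hθu
  rw [hnormϖ1] at key
  exact key

end Fermat.Agent.S56.LF.LevelBound
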