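/-
S56 / LF row B2 (LF5): the exit `MainStatement p → LevelBoundStatement p` (helper15; file of
record of the reduction step after the re-book of `Flat/LF5/Reduce.lean`).

The assembly is `ReduceAsm.reduce_of` (helper156); its three local inputs are theorems:

* `zetaStatement` : `‖ζ - 1‖ ^ (p - 1) = ‖p‖` (`Flat/LF5/ZetaNorm.lean`, helper216);
* `quadStatement` : the ramified quadratic extension `K(√ϖ)` (`Flat/LF5/Quad.lean`, helper86);
* `peelStatement` : peeling `p`-th powers off a unit, norm form (`Flat/LF5/PeelNorm.lean`,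
  helper216).

* `levelBound_of_main : MainStatement p → LevelBoundStatement p`.
-/
import Mathlib
import Fermat.Agent.S56.LF.LevelBound.ReduceAsm
import Fermat.Agent.S56.Flat.LF5.ZetaNorm
import Fermat.Agent.S56.Flat.LF5.Quad
import Fermat.Agent.S56.Flat.LF5.PeelNorm

set_option autoImplicit false

namespace Fermat.Agent.S56.LF.LevelBound.ReduceTwin

open Fermat.Agent.S56.LF.LevelBound Fermat.Agent.S56.Flat.LF5

variable {p : ℕ} [Fact p.Prime]

/-- (Z) `‖ζ - 1‖ ^ (p - 1) = ‖p‖` for a primitive `p`-th root of unity of `ℚ̄_p`. -/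
theorem zetaStatement : ReduceAsm.ZetaStatement p := by
  intro ζ hζ
  exact ZetaNorm.norm_sub_one_pow_eq (Fact.out : p.Prime) hζ

/-- (Q) the ramified quadratic extension `K(√ϖ)`. -/
theorem quadStatement : ReduceAsm.QuadStatement p := by
  intro K _ ϖ hϖK hϖ0 hϖ1 hmax
  exact Quad.exists_quad K hϖK hϖ0 hϖ1 hmax

/-- (N) peeling `p`-th powers off a unit, norm form. -/
theorem peelStatement : ReduceAsm.PeelStatement p := by
  intro K _ ϖ hϖK hϖ1 hmax e he hpe u huK hu
  exact PeelNorm.exists_peel_norm K hϖK hϖ1 hmax he hpe huK hu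

/-- **LF5, the reduction step**: the main statement at the fields `K(√ϖ_K)` gives the level
bound `u ∈ U_K^(e) · K^{×p}` for every `u ∈ Kˣ` with a `p`-th root in `L' K`. -/
theorem levelBound_of_main (hMain : MainStatement p) : LevelBoundStatement p :=
  ReduceAsm.reduce_of zetaStatement quadStatement peelStatement hMain

end Fermat.Agent.S56.LF.LevelBound.ReduceTwin
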