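import Mathlib
import Fermat.Agent.S56.LF.LevelBound.Tower
import Fermat.Agent.S56.LF.LevelBound.Family
import Fermat.Agent.S56.LF.LevelBound.CaseTwo
import Fermat.Agent.S56.LF.LevelBound.CaseThree

/-!
# S56 / LF row B2 (LF5), half A: the main statement

* `mainTower : MainTowerStatement p` : cases (ii) (`case_two`) and (iii) (`case_three`) of the
  main lemma on an abstract tower, both from the counting step `family`;
* `mainStatement : MainStatement p` : SEAM 2, by `main_of_tower`.
-/

set_option autoImplicit false

namespace Fermat.Agent.S56.LF.LevelBound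

/-- **The main lemma of LF5 on an abstract tower.** -/
theorem mainTower {p : ℕ} [Fact p.Prime] : MainTowerStatement p := by
  intro L0 K1 L _ _ _ h01 h1L hp0 hc1 hc2 hPL hcount ϖ hϖ e0 he u θ hu hθ hθu
  exact ⟨fun i hi1 hi2 hpi =>
      case_two family h01 h1L hp0 hc1 hc2 hPL hcount hϖ he hu hθ hθu i hi1 hi2 hpi,
    fun h3 => case_three family h01 h1L hp0 hc1 hc2 hPL hcount hϖ he hu hθ hθu h3⟩

/-- **SEAM 2 of row B2**: the main statement of LF5 at a finite `K2` with uniformiser `ϖ`. -/
theorem mainStatement {p : ℕ} [Fact p.Prime] : MainStatement p :=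
  main_of_tower mainTower

end Fermat.Agent.S56.LF.LevelBound
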