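import Mathlib
import Fermat.Agent.CFT.Local.PadicExt

/-!
# A ramified quadratic step above a finite extension of `ℚ_[p]` (insurance twin)

For a finite extension `K` of `ℚ_[p]` inside `PadicAlgCl p` and an element `ϖ ∈ K` of largest
norm `< 1` (a uniformiser), a square root `r` of `ϖ` generates a finite extension `K2 = K(r)` in
which `r` is again an element of largest norm `< 1`.

Every element of `K(r)` is `a + b * r` with `a, b ∈ K`; the norms of the nonzero elements of `K`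
are integral powers of `‖ϖ‖ = ‖r‖ ^ 2`, so `‖a‖ ≠ ‖b * r‖` unless both vanish, and the ultrametric
inequality is an equality.
-/

set_option autoImplicit false

namespace Fermat.Agent.S56.LF.LevelBound.QuadTwin

/-- Every element of `K(r)` with `r * r ∈ K` is `a + b * r` with `a, b ∈ K`. -/
theorem mem_adjoin_quad {p : ℕ} [Fact p.Prime] (K : IntermediateField ℚ_[p] (PadicAlgCl p))
    {r : PadicAlgCl p} (hr : r * r ∈ K) {x : PadicAlgCl p}
    (hx : x ∈ IntermediateField.adjoin ℚ_[p] ((K : Set (PadicAlgCl p)) ∪ {r})) :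
    ∃ a ∈ K, ∃ b ∈ K, x = a + b * r := by
  induction hx using IntermediateField.adjoin_induction with
  | mem x hx =>
    rcases hx with hx | hx
    · exact ⟨x, hx, 0, K.zero_mem, by simp⟩
    · rw [Set.mem_singleton_iff] at hx
      exact ⟨0, K.zero_mem, 1, K.one_mem, by simp [hx]⟩
  | algebraMap x =>
    exact ⟨algebraMap ℚ_[p] (PadicAlgCl p) x, K.algebraMap_mem x, 0, K.zero_mem, by simp⟩
  | add x y hx hy ihx ihy =>
    obtain ⟨a, ha, b, hb, rfl⟩ := ihx
    obtain ⟨c, hc, d, hd, rfl⟩ := ihy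
    exact ⟨a + c, K.add_mem ha hc, b + d, K.add_mem hb hd, by ring⟩
  | inv x hx ihx =>
    obtain ⟨a, ha, b, hb, rfl⟩ := ihx
    by_cases hN : a * a - b * b * (r * r) = 0
    · by_cases hx0 : a + b * r = 0
      · exact ⟨0, K.zero_mem, 0, K.zero_mem, by simp [hx0]⟩
      · have h1 : (a - b * r) * (a + b * r) = 0 := by rw [← hN]; ring
        have h2 : a - b * r = 0 := (mul_eq_zero.mp h1).resolve_right hx0
        have h3 : a = b * r := sub_eq_zero.mp h2
        have hxK : a + b * r ∈ K := by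
          rw [← h3]
          exact K.add_mem ha ha
        exact ⟨(a + b * r)⁻¹, K.inv_mem hxK, 0, K.zero_mem, by simp⟩
    · have hNK : a * a - b * b * (r * r) ∈ K :=
        K.sub_mem (K.mul_mem ha ha) (K.mul_mem (K.mul_mem hb hb) hr)
      refine ⟨a / (a * a - b * b * (r * r)), K.div_mem ha hNK,
        -b / (a * a - b * b * (r * r)), K.div_mem (K.neg_mem hb) hNK, ?_⟩
      refine inv_eq_of_mul_eq_one_right ?_
      have h4 : (a + b * r) * (a / (a * a - b * b * (r * r)) +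
          -b / (a * a - b * b * (r * r)) * r) =
          (a * a - b * b * (r * r)) / (a * a - b * b * (r * r)) := by
        ring
      rw [h4, div_self hN]
  | mul x y hx hy ihx ihy =>
    obtain ⟨a, ha, b, hb, rfl⟩ := ihx
    obtain ⟨c, hc, d, hd, rfl⟩ := ihy
    exact ⟨a * c + b * d * (r * r), K.add_mem (K.mul_mem ha hc) (K.mul_mem (K.mul_mem hb hd) hr),
      a * d + b * c, K.add_mem (K.mul_mem ha hd) (K.mul_mem hb hc), by ring⟩

/-- The norm computation: for `a, b ∈ K` and `r ^ 2 = ϖ` a uniformiser of `K`, an element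
`a + b * r` of norm `< 1` has norm at most `‖r‖`. -/
theorem norm_le_of_quad {p : ℕ} [Fact p.Prime] (K : IntermediateField ℚ_[p] (PadicAlgCl p))
    {ϖ r : PadicAlgCl p} (hϖ0 : ϖ ≠ 0) (hϖ1 : ‖ϖ‖ < 1)
    (hmax : ∀ x ∈ K, ‖x‖ < 1 → ‖x‖ ≤ ‖ϖ‖) (hr : r ^ 2 = ϖ)
    {a b : PadicAlgCl p} (ha : a ∈ K) (hb : b ∈ K) (hx : ‖a + b * r‖ < 1) :
    ‖a + b * r‖ ≤ ‖r‖ := by
  have hr0 : r ≠ 0 := by
    rintro rfl
    apply hϖ0
    rw [← hr]
    simp
  have hrpos : 0 < ‖r‖ := norm_pos_iff.mpr hr0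
  have hrn : ‖r‖ ^ 2 = ‖ϖ‖ := by rw [← norm_pow, hr]
  have hr1 : ‖r‖ < 1 := by
    by_contra h
    have h1 : 1 ≤ ‖r‖ ^ 2 := one_le_pow₀ (not_lt.mp h)
    linarith
  have hϖr : ‖ϖ‖ < ‖r‖ := by
    rw [← hrn]
    nlinarith
  by_cases hab : ‖a‖ = ‖b * r‖
  · by_cases hb0 : b = 0
    · subst hb0
      have ha0 : a = 0 := by
        rw [zero_mul, norm_zero] at hab
        exact norm_eq_zero.mp hab
      subst ha0
      simp
    · exfalso
      have hc : a / b ∈ K := K.div_mem ha hb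
      have hbpos : 0 < ‖b‖ := norm_pos_iff.mpr hb0
      have hcn : ‖a / b‖ = ‖r‖ := by
        rw [norm_div, hab, norm_mul]
        field_simp
      have h1 := hmax _ hc (by rw [hcn]; exact hr1)
      rw [hcn] at h1
      linarith
  · have hmaxeq : ‖a + b * r‖ = max ‖a‖ ‖b * r‖ :=
      IsUltrametricDist.norm_add_eq_max_of_norm_ne_norm hab
    rw [hmaxeq] at hx ⊢
    have ha1 : ‖a‖ < 1 := lt_of_le_of_lt (le_max_left _ _) hx
    have hbr1 : ‖b * r‖ < 1 := lt_of_le_of_lt (le_max_right _ _) hx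
    have ha' : ‖a‖ ≤ ‖r‖ := (hmax a ha ha1).trans hϖr.le
    have hb1 : ‖b‖ ≤ 1 := by
      by_contra h'
      have h : 1 < ‖b‖ := not_le.mp h'
      have hbpos : 0 < ‖b‖ := lt_trans one_pos h
      have hbi : ‖b⁻¹‖ < 1 := by
        rw [norm_inv]
        exact inv_lt_one_of_one_lt₀ h
      have h2 := hmax _ (K.inv_mem hb) hbi
      rw [norm_inv, ← hrn] at h2
      rw [norm_mul] at hbr1
      have h3 : 1 ≤ ‖b‖ * ‖r‖ ^ 2 := by
        have h4 := mul_le_mul_of_nonneg_left h2 hbpos.le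
        rwa [mul_inv_cancel₀ hbpos.ne'] at h4
      nlinarith [mul_pos (sub_pos.mpr hbr1) hrpos]
    have hbr : ‖b * r‖ ≤ ‖r‖ := by
      rw [norm_mul]
      calc ‖b‖ * ‖r‖ ≤ 1 * ‖r‖ := mul_le_mul_of_nonneg_right hb1 hrpos.le
        _ = ‖r‖ := one_mul _
    exact max_le ha' hbr

/-- **Quadratic step.**  Above a finite extension `K` of `ℚ_[p]` with uniformiser `ϖ` there is a
finite extension `K2` containing a square root `r` of `ϖ` which is a uniformiser of `K2`. -/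
theorem exists_quad {p : ℕ} [Fact p.Prime] (K : IntermediateField ℚ_[p] (PadicAlgCl p)) [FiniteDimensional ℚ_[p] K] {ϖ : PadicAlgCl p} (hϖK : ϖ ∈ K) (hϖ0 : ϖ ≠ 0) (hϖ1 : ‖ϖ‖ < 1) (hmax : ∀ x ∈ K, ‖x‖ < 1 → ‖x‖ ≤ ‖ϖ‖) : ∃ (K2 : IntermediateField ℚ_[p] (PadicAlgCl p)) (r : PadicAlgCl p), FiniteDimensional ℚ_[p] K2 ∧ K ≤ K2 ∧ r ∈ K2 ∧ r ^ 2 = ϖ ∧ (∀ x ∈ K2, ‖x‖ < 1 → ‖x‖ ≤ ‖r‖) := by
  obtain ⟨r, hr⟩ := IsAlgClosed.exists_pow_nat_eq ϖ (by norm_num : 0 < 2)
  have hrr : r * r ∈ K := by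
    rw [← pow_two, hr]
    exact hϖK
  refine ⟨IntermediateField.adjoin ℚ_[p] ((K : Set (PadicAlgCl p)) ∪ {r}), r, ?_, ?_, ?_, hr, ?_⟩
  · rw [IntermediateField.adjoin_union, IntermediateField.adjoin_self]
    have : FiniteDimensional ℚ_[p]
        (IntermediateField.adjoin ℚ_[p] ({r} : Set (PadicAlgCl p))) :=
      IntermediateField.adjoin.finiteDimensional (Algebra.IsIntegral.isIntegral r)
    exact IntermediateField.finiteDimensional_sup K _
  · intro x hx
    exact IntermediateField.subset_adjoin _ _ (Or.inl hx)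
  · exact IntermediateField.subset_adjoin _ _ (Or.inr rfl)
  · intro x hx hx1
    obtain ⟨a, ha, b, hb, rfl⟩ := mem_adjoin_quad K hrr hx
    exact norm_le_of_quad K hϖ0 hϖ1 hmax hr ha hb hx1

end Fermat.Agent.S56.LF.LevelBound.QuadTwin
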